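import Fermat.Agent.S17.FFK.Defs

/-!
# S17 / FFK-B : base divisor of a subspace of `L(D)`; sub-divisors of prescribed degree
-/

set_option autoImplicit false

namespace Fermat.Agent.S17.FFK

open AlgebraicCurve Fermat.Agent.S24.FF Fermat.Agent.GAL.FF

variable {K F : Type*} [Field K] [Field F] [Algebra K F]

/-- the least order at `P` of a non-zero element of `W ≤ L(D)`. -/
theorem base_exists_min (W : Submodule K F) {f0 : F} (hf0 : f0 ∈ W) (hf00 : f0 ≠ 0)
    (D : Divisor K F) (hWD : W ≤ riemannRochSpace D) (P : Place K F) :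
    ∃ m : ℤ, (∃ f ∈ W, f ≠ 0 ∧ P.ord f = m) ∧ (∀ f ∈ W, f ≠ 0 → m ≤ P.ord f) ∧
      - D P ≤ m ∧ m ≤ P.ord f0 := by
  classical
  have hbd : ∀ z : ℤ, (∃ f ∈ W, f ≠ 0 ∧ P.ord f = z) → - D P ≤ z := by
    rintro z ⟨f, hf, hf0, rfl⟩
    exact ((mem_riemannRochSpace_iff.1 (hWD hf)) P).resolve_left hf0
  obtain ⟨m, hm, hmin⟩ := Int.exists_least_of_bdd (P := fun z => ∃ f ∈ W, f ≠ 0 ∧ P.ord f = z)
    ⟨- D P, hbd⟩ ⟨P.ord f0, f0, hf0, hf00, rfl⟩
  exact ⟨m, hm, fun f hf hf0 => hmin _ ⟨f, hf, hf0, rfl⟩, hbd m hm,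
    hmin _ ⟨f0, hf0, hf00, rfl⟩⟩

theorem exists_isBase [IsAlgClosed K] [IsFF1 K F] (W : Submodule K F) (hW : W ≠ ⊥)
    (D : Divisor K F) (hWD : W ≤ riemannRochSpace D) : ∃ D' : Divisor K F, D' ≤ D ∧ IsBase W D' := by
  classical
  obtain ⟨f0, hf0, hf00⟩ := Submodule.exists_mem_ne_zero_of_ne_bot hW
  choose m hm1 hm2 hm3 hm4 using base_exists_min W hf0 hf00 D hWD
  have hsupp : ∀ P : Place K F, - m P ≠ 0 → P ∈ D.support ∪ (divOf K f0).support := by
    intro P hP
    by_contra hcon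
    rw [Finset.mem_union, not_or, Finsupp.notMem_support_iff, Finsupp.notMem_support_iff,
      divOf_apply] at hcon
    have h3 := hm3 P
    have h4 := hm4 P
    rw [hcon.1] at h3
    rw [hcon.2] at h4
    omega
  refine ⟨Finsupp.onFinset (D.support ∪ (divOf K f0).support) (fun P => - m P) hsupp, ?_, ?_, ?_⟩
  · intro P
    rw [Finsupp.onFinset_apply]
    have := hm3 P
    omega
  · intro f hf
    rw [mem_riemannRochSpace_iff]
    intro P
    by_cases hf0' : f = 0
    · exact Or.inl hf0'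
    · right
      rw [Finsupp.onFinset_apply, neg_neg]
      exact hm2 P f hf hf0'
  · intro P
    obtain ⟨f, hf, hf0', hfm⟩ := hm1 P
    exact ⟨f, hf, hf0', by rw [Finsupp.onFinset_apply, neg_neg, hfm]⟩

theorem exists_le_degree_eq [IsAlgClosed K] [IsFF1 K F] {A : Divisor K F} (hA : 0 ≤ A) (n : ℕ)
    (hn : (n : ℤ) ≤ Divisor.degree A) :
    ∃ A' : Divisor K F, 0 ≤ A' ∧ A' ≤ A ∧ Divisor.degree A' = n := by
  classical
  induction n with
  | zero => exact ⟨0, le_refl _, hA, by simp⟩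
  | succ n ih =>
    obtain ⟨A', h0, hle, hdeg⟩ := ih (by push_cast at hn; omega)
    have hne : A' ≠ A := by
      rintro rfl
      rw [hdeg] at hn
      push_cast at hn
      omega
    obtain ⟨P, hP⟩ : ∃ P, A' P ≠ A P := by
      by_contra hcon
      exact hne (Finsupp.ext fun Q => by_contra fun h => hcon ⟨Q, h⟩)
    have hlt : A' P < A P := lt_of_le_of_ne (hle P) hP
    refine ⟨A' + Finsupp.single P 1, ?_, ?_, ?_⟩
    · intro Q
      have h1 := h0 Q
      rw [Finsupp.zero_apply] at h1 ⊢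
      rw [Finsupp.add_apply, Finsupp.single_apply]
      split_ifs <;> omega
    · intro Q
      have h1 := hle Q
      rw [Finsupp.add_apply, Finsupp.single_apply]
      split_ifs with h
      · subst h; omega
      · omega
    · rw [map_add, hdeg, degree_single_one]
      push_cast
      ring

end Fermat.Agent.S17.FFK
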