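import Fermat.Agent.S17.FFK.CM

/-!
# S17 / FFK : base divisor of a subspace, pencils in a subspace, the closedness criterion (CL)
-/

set_option autoImplicit false

namespace Fermat.Agent.S17.FFK

open AlgebraicCurve Fermat.Agent.S24.FF Fermat.Agent.GAL.FF

variable {K F : Type*} [Field K] [Field F] [Algebra K F]

/-- `D` is the base divisor of the subspace `W`: the smallest `D` with `W ≤ L(D)`. -/
structure IsBaseDiv (W : Submodule K F) (D : Divisor K F) : Prop where
  le : W ≤ riemannRochSpace D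
  exact : ∀ v : Place K F, ∃ f ∈ W, f ≠ 0 ∧ v.ord f = - D v

theorem exists_isBaseDiv [IsFF1 K F] {W : Submodule K F} {D₀ : Divisor K F}
    (hW : W ≤ riemannRochSpace D₀) (hW0 : W ≠ ⊥) :
    ∃ D : Divisor K F, IsBaseDiv W D ∧ D ≤ D₀ := by
  classical
  obtain ⟨f₀, hf₀, hf₀0⟩ := Submodule.exists_mem_ne_zero_of_ne_bot hW0
  have hlow : ∀ v : Place K F, ∀ f ∈ W, f ≠ 0 → - D₀ v ≤ v.ord f := fun v f hf hf0 =>
    ((mem_riemannRochSpace_iff.1 (hW hf)) v).resolve_left hf0
  have hex : ∀ v : Place K F, ∃ μ : ℤ, (∃ f ∈ W, f ≠ 0 ∧ v.ord f = μ) ∧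
      ∀ z : ℤ, (∃ f ∈ W, f ≠ 0 ∧ v.ord f = z) → μ ≤ z := by
    intro v
    obtain ⟨μ, h1, h2⟩ := Int.exists_least_of_bdd (P := fun z : ℤ => ∃ f ∈ W, f ≠ 0 ∧ v.ord f = z)
      ⟨- D₀ v, by rintro z ⟨f, hf, hf0, rfl⟩; exact hlow v f hf hf0⟩ ⟨_, f₀, hf₀, hf₀0, rfl⟩
    exact ⟨μ, h1, h2⟩
  choose μ hμ1 hμ2 using hex
  have hfin : (Function.support fun v => - μ v).Finite := by
    refine ((D₀.support ∪ (divOf K f₀).support : Finset _).finite_toSet).subset ?_
    intro v hv
    by_contra hcon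
    rw [Finset.mem_coe, Finset.mem_union, not_or, Finsupp.notMem_support_iff,
      Finsupp.notMem_support_iff, divOf_apply] at hcon
    obtain ⟨f, hf, hf0, hfv⟩ := hμ1 v
    have h1 := hlow v f hf hf0
    have h2 := hμ2 v _ ⟨f₀, hf₀, hf₀0, rfl⟩
    apply hv
    show - μ v = 0
    omega
  refine ⟨Finsupp.ofSupportFinite (fun v => - μ v) hfin, ⟨?_, ?_⟩, ?_⟩
  · intro f hf
    rw [mem_riemannRochSpace_iff]
    intro v
    rcases eq_or_ne f 0 with rfl | hf0
    · left; rfl
    right
    rw [Finsupp.ofSupportFinite_coe, neg_neg]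
    exact hμ2 v _ ⟨f, hf, hf0, rfl⟩
  · intro v
    obtain ⟨f, hf, hf0, hfv⟩ := hμ1 v
    exact ⟨f, hf, hf0, by rw [Finsupp.ofSupportFinite_coe, neg_neg, hfv]⟩
  · intro v
    obtain ⟨f, hf, hf0, hfv⟩ := hμ1 v
    have h1 := hlow v f hf hf0
    rw [Finsupp.ofSupportFinite_coe]
    omega

/-- general member of a subspace with respect to its base divisor. -/
theorem IsBaseDiv.exists_ord_eq [Infinite K] {W : Submodule K F} {D : Divisor K F}
    (h : IsBaseDiv W D) (v₀ : Place K F) (S : Finset (Place K F)) :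
    ∃ f ∈ W, f ≠ 0 ∧ ∀ v ∈ S, v.ord f = - D v := by
  classical
  let p : Place K F → Subspace K W := fun v =>
    (riemannRochSpace (D - Finsupp.single v 1)).submoduleOf W
  have hp : ∀ v, p v ≠ ⊤ := by
    intro v hv
    obtain ⟨f, hf, hf0, hfv⟩ := h.exact v
    have : (⟨f, hf⟩ : W) ∈ p v := by rw [hv]; trivial
    have h2 : f ∈ riemannRochSpace (D - Finsupp.single v 1) := this
    exact (mem_L_sub_single_iff (h.le hf) hf0).1 h2 hfv
  have hs : (⊤ : Subspace K W) ∉ (insert v₀ S).image p := by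
    intro hmem
    obtain ⟨v, -, hv⟩ := Finset.mem_image.1 hmem
    exact hp v hv
  have hne := Subspace.biUnion_ne_univ_of_top_notMem hs
  obtain ⟨x, hx⟩ := (Set.ne_univ_iff_exists_notMem _).1 hne
  simp only [Set.mem_iUnion, not_exists, Finset.mem_image] at hx
  have hx' : ∀ v ∈ insert v₀ S, (x : F) ∉ riemannRochSpace (D - Finsupp.single v 1) :=
    fun v hv hmem => hx (p v) ⟨v, hv, rfl⟩ hmem
  have hx0 : (x : F) ≠ 0 := by
    intro h0
    exact hx' v₀ (Finset.mem_insert_self _ _) (h0 ▸ Submodule.zero_mem _)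
  refine ⟨x, x.2, hx0, fun v hv => ?_⟩
  by_contra hcon
  exact hx' v (Finset.mem_insert_of_mem hv) ((mem_L_sub_single_iff (h.le x.2) hx0).2 hcon)

/-- a base point free pencil inside a subspace (relative to its base divisor). -/
theorem IsBaseDiv.exists_pencil [IsAlgClosed K] [IsFF1 K F] {W : Submodule K F}
    {D : Divisor K F} (h : IsBaseDiv W D) :
    ∃ f ∈ W, ∃ g ∈ W, f ≠ 0 ∧ g ≠ 0 ∧ ∀ v : Place K F, min (v.ord f) (v.ord g) = - D v := by
  classical
  obtain ⟨v₀⟩ := nonempty_place (K := K) (F := F)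
  obtain ⟨f, hf, hf0, -⟩ := h.exists_ord_eq v₀ ∅
  obtain ⟨g, hg, hg0, hgW⟩ := h.exists_ord_eq v₀ (D + divOf K f).support
  refine ⟨f, hf, g, hg, hf0, hg0, fun v => ?_⟩
  have h1 := ((mem_riemannRochSpace_iff.1 (h.le hf)) v).resolve_left hf0
  have h2 := ((mem_riemannRochSpace_iff.1 (h.le hg)) v).resolve_left hg0
  by_cases hv : v ∈ (D + divOf K f).support
  · rw [hgW v hv]; exact min_eq_right h1
  · rw [Finsupp.notMem_support_iff, Finsupp.add_apply, divOf_apply] at hv
    have : v.ord f = - D v := by omega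
    rw [this]; exact min_eq_left h2

theorem mem_L_of_pencil_left {D : Divisor K F} {f g : F}
    (hmin : ∀ v : Place K F, min (v.ord f) (v.ord g) = - D v) : f ∈ riemannRochSpace D :=
  mem_riemannRochSpace_iff.2 fun v => Or.inr ((hmin v) ▸ min_le_left _ _)

theorem mem_L_of_pencil_right {D : Divisor K F} {f g : F}
    (hmin : ∀ v : Place K F, min (v.ord f) (v.ord g) = - D v) : g ∈ riemannRochSpace D :=
  mem_riemannRochSpace_iff.2 fun v => Or.inr ((hmin v) ▸ min_le_right _ _)

/-- **pencil trick**: `f L(E) + g L(E) = L(D + E)`. -/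
theorem IsReg.pencil_sup [IsAlgClosed K] [IsFF1 K F] {c : ℤ} (h : IsReg K F c)
    {D E : Divisor K F} {f g : F} (hf0 : f ≠ 0) (hg0 : g ≠ 0)
    (hmin : ∀ v : Place K F, min (v.ord f) (v.ord g) = - D v)
    (h1 : c ≤ Divisor.degree E) (h2 : Divisor.degree D + c ≤ Divisor.degree E)
    (h3 : c ≤ Divisor.degree D + Divisor.degree E) :
    mulMap f (riemannRochSpace E) ⊔ mulMap g (riemannRochSpace E) =
      riemannRochSpace (D + E) := by
  have e1 := h E h1
  have e2 := h (E - D) (by rw [map_sub]; omega)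
  have e3 := h (D + E) (by rw [map_add]; omega)
  rw [map_sub] at e2
  rw [map_add] at e3
  have hsum := Submodule.finrank_sup_add_finrank_inf_eq
    (mulMap f (riemannRochSpace E)) (mulMap g (riemannRochSpace E))
  rw [pencil_inf hf0 hg0 hmin, finrank_mulMap hf0, finrank_mulMap hg0,
    finrank_mulMap (mul_ne_zero hf0 hg0)] at hsum
  have hle : mulMap f (riemannRochSpace E) ⊔ mulMap g (riemannRochSpace E) ≤
      riemannRochSpace D * riemannRochSpace E :=
    sup_le (mulMap_le_mul (mem_L_of_pencil_left hmin)) (mulMap_le_mul (mem_L_of_pencil_right hmin))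
  refine Submodule.eq_of_le_of_finrank_le (hle.trans (L_mul_le D E)) ?_
  have e1' : (Module.finrank K (riemannRochSpace E) : ℤ) = _ := e1
  have e2' : (Module.finrank K (riemannRochSpace (E - D)) : ℤ) = _ := e2
  have e3' : (Module.finrank K (riemannRochSpace (D + E)) : ℤ) = _ := e3
  omega

/-- a subspace times `L(E)` is `L(D + E)`, `D` the base divisor (no condition on `deg D`
except through `E`). -/
theorem IsReg.mul_L_of_isBaseDiv [IsAlgClosed K] [IsFF1 K F] {c : ℤ} (h : IsReg K F c)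
    {W : Submodule K F} {D E : Divisor K F} (hW : IsBaseDiv W D)
    (h1 : c ≤ Divisor.degree E) (h2 : Divisor.degree D + c ≤ Divisor.degree E)
    (h3 : c ≤ Divisor.degree D + Divisor.degree E) :
    W * riemannRochSpace E = riemannRochSpace (D + E) := by
  obtain ⟨f, hf, g, hg, hf0, hg0, hmin⟩ := hW.exists_pencil
  apply le_antisymm
  · exact (mul_le_mul' hW.le le_rfl).trans (L_mul_le D E)
  · rw [← h.pencil_sup hf0 hg0 hmin h1 h2 h3]
    exact sup_le (mulMap_le_mul hf) (mulMap_le_mul hg)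

/-- an effective divisor of degree `> a` dominates an effective divisor of degree `a + 1`. -/
theorem exists_le_degree_eq [IsAlgClosed K] [IsFF1 K F] {A : Divisor K F} (hA : 0 ≤ A)
    (n : ℕ) (hn : (n : ℤ) ≤ Divisor.degree A) :
    ∃ A' : Divisor K F, 0 ≤ A' ∧ A' ≤ A ∧ Divisor.degree A' = n := by
  refine le_induction (P := fun B => (n : ℤ) ≤ Divisor.degree B →
    ∃ A' : Divisor K F, 0 ≤ A' ∧ A' ≤ B ∧ Divisor.degree A' = n) ?_ ?_ hA hn
  · intro h0
    rw [map_zero] at h0
    refine ⟨0, le_rfl, le_rfl, ?_⟩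
    rw [map_zero]; omega
  · intro B v hB ih hdeg
    rw [map_add, degree_single_one] at hdeg
    have hBle : B ≤ B + Finsupp.single v 1 := by
      have := sub_single_le (B + Finsupp.single v 1) v
      rwa [add_sub_cancel_right] at this
    rcases eq_or_lt_of_le hdeg with heq | hlt
    · exact ⟨B + Finsupp.single v 1, hB.trans hBle, le_rfl, by
        rw [map_add, degree_single_one]; omega⟩
    · obtain ⟨A', h1, h2, h3⟩ := ih (by omega)
      exact ⟨A', h1, h2.trans hBle, h3⟩

/-- **(CL) closedness criterion.** -/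
theorem IsReg.closedness [IsAlgClosed K] [IsFF1 K F] {c : ℤ} (h : IsReg K F c)
    {D₀ E : Divisor K F} {W : Submodule K F} (hW : W ≤ riemannRochSpace D₀) (a : ℕ)
    (hdim : (Module.finrank K W : ℤ) = Divisor.degree D₀ - a + 1 - genusFF K F)
    (ha : c + 1 ≤ Divisor.degree D₀ - a) (hE : Divisor.degree D₀ + c ≤ Divisor.degree E)
    (hrank : (Module.finrank K (W * riemannRochSpace E : Submodule K F) : ℤ) + a ≤
      ell (D₀ + E)) :
    ∃ A : Divisor K F, 0 ≤ A ∧ Divisor.degree A = a ∧ W = riemannRochSpace (D₀ - A) := by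
  -- `c ≥ -1`, `g ≤ c + 1`
  obtain ⟨D₁, -, -, hD₁⟩ := exists_split (0 : Divisor K F) (c + 1)
  have hg : (genusFF K F : ℤ) ≤ c + 1 := hD₁ ▸ h.genus_le (D := D₁) (by omega)
  have hW0 : W ≠ ⊥ := by
    rintro rfl
    rw [finrank_bot] at hdim
    push_cast at hdim
    omega
  obtain ⟨D, hD, hDle⟩ := exists_isBaseDiv hW hW0
  have hA0 : 0 ≤ D₀ - D := sub_nonneg.2 hDle
  -- `deg (D₀ - D) ≤ a`
  have hle : Divisor.degree (D₀ - D) ≤ a := by
    by_contra hcon
    rw [not_le] at hcon
    obtain ⟨A', h1, h2, h3⟩ := exists_le_degree_eq hA0 (a + 1) (by push_cast; omega)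
    have hWle : W ≤ riemannRochSpace (D₀ - A') :=
      hD.le.trans (L_mono (by
        have : D = D₀ - (D₀ - D) := by abel
        rw [this]
        exact sub_le_sub_left h2 _))
    have e := h (D₀ - A') (by rw [map_sub, h3]; push_cast; omega)
    rw [map_sub, h3] at e
    have : Module.finrank K W ≤ ell (D₀ - A') := Submodule.finrank_mono hWle
    push_cast at e
    omega
  rw [map_sub] at hle
  have hDdeg := degree_mono hDle
  have hmul := h.mul_L_of_isBaseDiv (E := E) hD (by omega) (by omega) (by omega)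
  have e1 := h (D + E) (by rw [map_add]; omega)
  have e2 := h (D₀ + E) (by rw [map_add]; omega)
  rw [map_add] at e1 e2
  rw [hmul] at hrank
  have e1' : (Module.finrank K (riemannRochSpace (D + E)) : ℤ) = _ := e1
  have hdeg : Divisor.degree D₀ - Divisor.degree D = a := by omega
  refine ⟨D₀ - D, hA0, by rw [map_sub]; exact hdeg, ?_⟩
  have hDD : D₀ - (D₀ - D) = D := by abel
  rw [hDD]
  refine Submodule.eq_of_le_of_finrank_le hD.le ?_
  have e3 := h D (by omega)
  have e3' : (Module.finrank K (riemannRochSpace D) : ℤ) = _ := e3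
  omega

/-- converse of (CL): the rank condition holds for `W = L(D₀ - A)`. -/
theorem IsReg.finrank_mul_L [IsAlgClosed K] [IsFF1 K F] {c : ℤ} (h : IsReg K F c)
    {D₀ E A : Divisor K F} (hA : 0 ≤ A)
    (ha : c + 1 ≤ Divisor.degree D₀ - Divisor.degree A)
    (hE : Divisor.degree D₀ + c ≤ Divisor.degree E) :
    riemannRochSpace (D₀ - A) * riemannRochSpace E = riemannRochSpace (D₀ + E - A) ∧
    (ell (D₀ + E - A) : ℤ) + Divisor.degree A = ell (D₀ + E) := by
  have hA' := GAL.FF.degree_nonneg hA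
  have hd0 := h.degree_nonneg (D := D₀ - A) (by rw [map_sub]; omega)
  rw [map_sub] at hd0
  constructor
  · rw [h.L_mul_L_of_le (by rw [map_sub]; omega) (by rw [map_sub]; omega)]
    congr 1
    abel
  · have e1 := h (D₀ + E - A) (by rw [map_sub, map_add]; omega)
    have e2 := h (D₀ + E) (by rw [map_add]; omega)
    rw [map_sub, map_add] at e1
    rw [map_add] at e2
    omega

/-- **FFK-F** (board statement): the closedness criterion in the form used by the S17 skeleton. -/
theorem closedness [IsAlgClosed K] [IsFF1 K F] {c : ℤ} (hc : IsReg K F c) (D E : Divisor K F)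
    (a : ℕ) (hD : c + a + 1 ≤ Divisor.degree D) (hE : Divisor.degree D + c ≤ Divisor.degree E)
    (W : Submodule K F) (hW : W ≤ riemannRochSpace D)
    (hdim : (Module.finrank K W : ℤ) = Divisor.degree D - a + 1 - genusFF K F)
    (hrk : (Module.finrank K ↥(W * riemannRochSpace E) : ℤ) ≤ (ell (D + E) : ℤ) - a) :
    ∃ A : Divisor K F, 0 ≤ A ∧ Divisor.degree A = a ∧ W = riemannRochSpace (D - A) :=
  hc.closedness hW a hdim (by omega) hE (by omega)

end Fermat.Agent.S17.FFK
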