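import Fermat.Agent.S17.FFK.Reg

/-!
# S17 / FFK : `L(D) * L(D') = L(D + D')` in large degree (base point free pencil trick)
-/

set_option autoImplicit false

namespace Fermat.Agent.S17.FFK

open AlgebraicCurve Fermat.Agent.S24.FF Fermat.Agent.GAL.FF

variable {K F : Type*} [Field K] [Field F] [Algebra K F]

theorem mul_mem_L {D D' : Divisor K F} {a b : F} (ha : a ∈ riemannRochSpace D)
    (hb : b ∈ riemannRochSpace D') : a * b ∈ riemannRochSpace (D + D') := by
  rw [mem_riemannRochSpace_iff] at *
  intro v
  rcases eq_or_ne a 0 with rfl | ha0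
  · left; simp
  rcases eq_or_ne b 0 with rfl | hb0
  · left; simp
  right
  have h1 := (ha v).resolve_left ha0
  have h2 := (hb v).resolve_left hb0
  rw [v.ord_mul ha0 hb0, Finsupp.add_apply]
  omega

theorem L_mul_le (D D' : Divisor K F) :
    riemannRochSpace D * riemannRochSpace D' ≤ riemannRochSpace (D + D') :=
  Submodule.mul_le.2 fun _ ha _ hb => mul_mem_L ha hb

/-- image of a subspace under multiplication by `f`. -/
noncomputable abbrev mulMap (f : F) (S : Submodule K F) : Submodule K F :=
  S.map (LinearMap.mulLeft K f)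

theorem finrank_mulMap {f : F} (hf : f ≠ 0) (S : Submodule K F) :
    Module.finrank K (mulMap f S) = Module.finrank K S :=
  (LinearEquiv.finrank_eq (Submodule.equivMapOfInjective (LinearMap.mulLeft K f)
    (fun _ _ hab => mul_left_cancel₀ hf hab) S)).symm

theorem mulMap_le_mul {f : F} {S T : Submodule K F} (hf : f ∈ S) : mulMap f T ≤ S * T := by
  rintro _ ⟨x, hx, rfl⟩
  exact Submodule.mul_mem_mul hf hx

/-- the key of the pencil trick: `f L(D') ∩ g L(D') = f g L(D' - D)`. -/
theorem pencil_inf {D D' : Divisor K F} {f g : F} (hf0 : f ≠ 0) (hg0 : g ≠ 0)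
    (hmin : ∀ v : Place K F, min (v.ord f) (v.ord g) = - D v) :
    mulMap f (riemannRochSpace D') ⊓ mulMap g (riemannRochSpace D') =
      mulMap (f * g) (riemannRochSpace (D' - D)) := by
  apply le_antisymm
  · rintro x ⟨⟨a, ha, hax⟩, ⟨b, hb, hbx⟩⟩
    have hax' : f * a = x := hax
    have hbx' : g * b = x := hbx
    refine ⟨a / g, ?_, ?_⟩
    · show a / g ∈ riemannRochSpace (D' - D)
      rcases eq_or_ne a 0 with rfl | ha0
      · simp
      have hx0 : x ≠ 0 := hax' ▸ mul_ne_zero hf0 ha0
      have hb0 : b ≠ 0 := by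
        rintro rfl
        exact hx0 (by rw [← hbx', mul_zero])
      have hab : a / g = b / f := by
        rw [div_eq_div_iff hg0 hf0, mul_comm a f, hax', mul_comm b g, hbx']
      have ha' : a ∈ riemannRochSpace D' := ha
      have hb' : b ∈ riemannRochSpace D' := hb
      rw [mem_riemannRochSpace_iff] at ha' hb' ⊢
      intro v
      right
      have h1 := (ha' v).resolve_left ha0
      have h2 := (hb' v).resolve_left hb0
      have h3 : v.ord (a / g) = v.ord a - v.ord g := by
        rw [div_eq_mul_inv, v.ord_mul ha0 (inv_ne_zero hg0), v.ord_inv]; ring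
      have h4 : v.ord (a / g) = v.ord b - v.ord f := by
        rw [hab, div_eq_mul_inv, v.ord_mul hb0 (inv_ne_zero hf0), v.ord_inv]; ring
      have h5 := hmin v
      rw [Finsupp.sub_apply]
      rcases min_choice (v.ord f) (v.ord g) with h6 | h6 <;> rw [h6] at h5 <;> omega
    · show f * g * (a / g) = x
      rw [← hax']; field_simp
  · rintro _ ⟨u, hu, rfl⟩
    have hu' : u ∈ riemannRochSpace (D' - D) := hu
    have key : ∀ e : F, e ≠ 0 → (∀ v : Place K F, - D v ≤ v.ord e) →
        e * u ∈ riemannRochSpace D' := by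
      intro e he0 he
      rcases eq_or_ne u 0 with rfl | hu0
      · simp
      rw [mem_riemannRochSpace_iff] at hu' ⊢
      intro v
      right
      have h1 := (hu' v).resolve_left hu0
      rw [Finsupp.sub_apply] at h1
      rw [v.ord_mul he0 hu0]
      have := he v
      omega
    refine ⟨⟨g * u, key g hg0 (fun v => (hmin v) ▸ min_le_right _ _), ?_⟩,
      ⟨f * u, key f hf0 (fun v => (hmin v) ▸ min_le_left _ _), ?_⟩⟩
    · show f * (g * u) = f * g * u
      ring
    · show g * (f * u) = f * g * u
      ring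

/-- **(CM), asymmetric form.** -/
theorem IsReg.L_mul_L_of_le [IsAlgClosed K] [IsFF1 K F] {c : ℤ} (h : IsReg K F c)
    {D D' : Divisor K F} (hD : c + 1 ≤ Divisor.degree D)
    (hD' : Divisor.degree D + c ≤ Divisor.degree D') :
    riemannRochSpace D * riemannRochSpace D' = riemannRochSpace (D + D') := by
  obtain ⟨f, hf, g, hg, hf0, hg0, hmin⟩ := h.exists_pencil hD
  have hd0 := h.degree_nonneg hD
  have e1 := h D' (by omega)
  have e2 := h (D' - D) (by rw [map_sub]; omega)
  have e3 := h (D + D') (by rw [map_add]; omega)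
  rw [map_sub] at e2
  rw [map_add] at e3
  have hsum := Submodule.finrank_sup_add_finrank_inf_eq
    (mulMap f (riemannRochSpace D')) (mulMap g (riemannRochSpace D'))
  rw [pencil_inf hf0 hg0 hmin, finrank_mulMap hf0, finrank_mulMap hg0,
    finrank_mulMap (mul_ne_zero hf0 hg0)] at hsum
  have hle : mulMap f (riemannRochSpace D') ⊔ mulMap g (riemannRochSpace D') ≤
      riemannRochSpace D * riemannRochSpace D' :=
    sup_le (mulMap_le_mul hf) (mulMap_le_mul hg)
  have htop : mulMap f (riemannRochSpace D') ⊔ mulMap g (riemannRochSpace D') =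
      riemannRochSpace (D + D') := by
    refine Submodule.eq_of_le_of_finrank_le (hle.trans (L_mul_le D D')) ?_
    have e1' : (Module.finrank K (riemannRochSpace D') : ℤ) = _ := e1
    have e2' : (Module.finrank K (riemannRochSpace (D' - D)) : ℤ) = _ := e2
    have e3' : (Module.finrank K (riemannRochSpace (D + D')) : ℤ) = _ := e3
    omega
  exact le_antisymm (L_mul_le D D') (htop ▸ hle)

/-- every integer is the degree of a multiple of a place; splitting a divisor. -/
theorem exists_split [IsAlgClosed K] [IsFF1 K F] (D : Divisor K F) (a : ℤ) :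
    ∃ D₁ D₂ : Divisor K F, D = D₁ + D₂ ∧ Divisor.degree D₁ = a := by
  obtain ⟨v⟩ := nonempty_place (K := K) (F := F)
  refine ⟨Finsupp.single v a, D - Finsupp.single v a, by abel, ?_⟩
  rw [degree_single_one]

/-- **(CM), symmetric form.** -/
theorem IsReg.L_mul_L [IsAlgClosed K] [IsFF1 K F] {c : ℤ} (h : IsReg K F c)
    {D D' : Divisor K F} (hD : 3 * c + 3 ≤ Divisor.degree D)
    (hD' : 3 * c + 3 ≤ Divisor.degree D') :
    riemannRochSpace D * riemannRochSpace D' = riemannRochSpace (D + D') := by
  -- `c ≥ -1`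
  have hc : -1 ≤ c := by
    obtain ⟨D₁, -, -, h1⟩ := exists_split (0 : Divisor K F) (c + 1)
    have := h.degree_nonneg (D := D₁) (by omega)
    omega
  wlog hle : Divisor.degree D ≤ Divisor.degree D' generalizing D D'
  · rw [mul_comm, add_comm]
    exact this hD' hD (by omega)
  obtain ⟨D₁, D₂, rfl, h1⟩ := exists_split D (c + 1)
  rw [map_add, h1] at hD hle
  have s1 : riemannRochSpace D₁ * riemannRochSpace D₂ = riemannRochSpace (D₁ + D₂) :=
    h.L_mul_L_of_le (by omega) (by omega)
  have s2 : riemannRochSpace D₁ * riemannRochSpace D' = riemannRochSpace (D₁ + D') :=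
    h.L_mul_L_of_le (by omega) (by omega)
  have s3 : riemannRochSpace D₂ * riemannRochSpace (D₁ + D') =
      riemannRochSpace (D₂ + (D₁ + D')) :=
    h.L_mul_L_of_le (by omega) (by rw [map_add]; omega)
  rw [← s1, mul_comm (riemannRochSpace D₁), mul_assoc, s2, s3]
  congr 1
  abel

/-- `V_n V_m = V_{n+m}`. -/
theorem IsReg.V_mul_V [IsAlgClosed K] [IsFF1 K F] {c : ℤ} (h : IsReg K F c) (v : Place K F)
    {n m : ℤ} (hn : 3 * c + 3 ≤ n) (hm : 3 * c + 3 ≤ m) :
    riemannRochSpace (Finsupp.single v n) * riemannRochSpace (Finsupp.single v m) =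
      riemannRochSpace (Finsupp.single v (n + m)) := by
  rw [h.L_mul_L (by rwa [degree_single_one]) (by rwa [degree_single_one]), Finsupp.single_add]

end Fermat.Agent.S17.FFK
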