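import Fermat.Agent.S17.FFK.CM

/-!
# S17 / FFK : function field lemmas over an arbitrary algebraically closed field.  Definitions.

(append-only; owner helper83).  `IsReg`, `mulMap` are in `Reg.lean`, `CM.lean` (helper24).
-/

set_option autoImplicit false

namespace Fermat.Agent.S17.FFK

open AlgebraicCurve Fermat.Agent.S24.FF Fermat.Agent.GAL.FF

variable {K F : Type*} [Field K] [Field F] [Algebra K F]

/-- `D` is the base divisor of `W`: the smallest divisor with `W ≤ L(D)`. -/
def IsBase (W : Submodule K F) (D : Divisor K F) : Prop :=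
  W ≤ riemannRochSpace D ∧ ∀ P : Place K F, ∃ f ∈ W, f ≠ 0 ∧ P.ord f = - D P

end Fermat.Agent.S17.FFK
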