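import Fermat.Agent.S17.FFK.HP
import Fermat.Prelude.Def_AlgebraicCurve_BaseChangeGalois

/-!
# S17 / FFK : (EX) canonical effective representatives `A_x` of degree `g` of a class `x ∈ Pic⁰`

`oo` a fixed place, `g = genusFF K F`.

* `cl oo : Divisor K F →+ Pic0 K F`, `A ↦ [A - deg A · oo]`;
* `IsRep oo x A`   : `0 ≤ A`, `deg A = g`, `cl oo A = x`;
* `IsCanon oo x A` : `IsRep` and the multiplicity `A oo` is maximal among all representatives
                     (so `A = E + (g - r) oo` with `E ≥ 0`, `E oo = 0`, `deg E = r` minimal);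
* `existsUnique_isCanon`, `Ax oo x`, with API `Ax_nonneg`, `degree_Ax`, `cl_Ax`, `Ax_smul`
  (equivariance under semilinear automorphisms), `Ax_add_rel`, `Ax_sub_rel`, `Ax_inj`.
-/

set_option autoImplicit false

namespace Fermat.Agent.S17.FFK

open AlgebraicCurve Fermat.Agent.S24.FF Fermat.Agent.GAL.FF

variable {K F : Type*} [Field K] [Field F] [Algebra K F]

theorem mem_principal_iff [IsFF1 K F] {D : Divisor K F} :
    D ∈ Divisor.principal (K := K) (F := F) ↔ ∃ u : F, u ≠ 0 ∧ D = divOf K u := by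
  constructor
  · rintro ⟨u, hu, h⟩
    exact ⟨u, hu, Finsupp.ext fun v => by rw [h v, divOf_apply]⟩
  · rintro ⟨u, hu, rfl⟩
    exact ⟨u, hu, fun v => divOf_apply u v⟩

theorem divOf_mem_principal [IsFF1 K F] {u : F} (hu : u ≠ 0) :
    divOf K u ∈ Divisor.principal (K := K) (F := F) :=
  mem_principal_iff.2 ⟨u, hu, rfl⟩

theorem divOf_algebraMap_eq_zero [IsFF1 K F] (a : K) : divOf K (algebraMap K F a) = 0 := by
  ext v
  rw [divOf_apply, ord_algebraMap, Finsupp.zero_apply]

section cl

variable [IsAlgClosed K] [IsFF1 K F]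

/-- `A ↦ A - deg A · oo`, as a homomorphism to degree zero divisors. -/
noncomputable def dz (oo : Place K F) : Divisor K F →+ Divisor.degZero (K := K) (F := F) where
  toFun A := ⟨A - Finsupp.single oo (Divisor.degree A), by
    rw [Divisor.mem_degZero, map_sub, degree_single_one, sub_self]⟩
  map_zero' := Subtype.ext (by simp)
  map_add' A B := Subtype.ext (by
    show A + B - Finsupp.single oo (Divisor.degree (A + B)) =
      (A - Finsupp.single oo (Divisor.degree A)) + (B - Finsupp.single oo (Divisor.degree B))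
    rw [map_add, Finsupp.single_add]; abel)

theorem coe_dz (oo : Place K F) (A : Divisor K F) :
    ((dz oo A : Divisor.degZero (K := K) (F := F)) : Divisor K F) =
      A - Finsupp.single oo (Divisor.degree A) := rfl

/-- the class `[A - deg A · oo]`. -/
noncomputable def cl (oo : Place K F) : Divisor K F →+ Pic0 K F :=
  (QuotientAddGroup.mk' _).comp (dz oo)

theorem cl_apply (oo : Place K F) (A : Divisor K F) : cl oo A = Pic0.mk (dz oo A) := rfl

omit [IsAlgClosed K] [IsFF1 K F] in
theorem mk_eq_zero_iff (D : Divisor.degZero (K := K) (F := F)) :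
    Pic0.mk D = 0 ↔ (D : Divisor K F) ∈ Divisor.principal (K := K) (F := F) := by
  unfold Pic0.mk
  rw [QuotientAddGroup.eq_zero_iff, AddSubgroup.mem_addSubgroupOf]

theorem cl_eq_zero_iff (oo : Place K F) (A : Divisor K F) :
    cl oo A = 0 ↔ A - Finsupp.single oo (Divisor.degree A) ∈
      Divisor.principal (K := K) (F := F) := by
  rw [cl_apply, mk_eq_zero_iff, coe_dz]

theorem cl_coe (oo : Place K F) (D : Divisor.degZero (K := K) (F := F)) :
    cl oo (D : Divisor K F) = Pic0.mk D := by
  rw [cl_apply]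
  congr 1
  apply Subtype.ext
  rw [coe_dz, Divisor.mem_degZero.1 D.2, Finsupp.single_zero, sub_zero]

theorem cl_surjective (oo : Place K F) : Function.Surjective (cl (K := K) (F := F) oo) := by
  intro x
  obtain ⟨D, rfl⟩ := Pic0.mk_surjective x
  exact ⟨D, cl_coe oo D⟩

theorem cl_single (oo : Place K F) (n : ℤ) : cl oo (Finsupp.single oo n) = 0 := by
  rw [cl_eq_zero_iff, degree_single_one, sub_self]
  exact zero_mem _

theorem cl_divOf (oo : Place K F) {u : F} (hu : u ≠ 0) : cl oo (divOf K u) = 0 := by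
  rw [cl_eq_zero_iff, degree_divOf, Finsupp.single_zero, sub_zero]
  exact divOf_mem_principal hu

/-- two divisors of the same degree have the same class iff they are linearly equivalent. -/
theorem cl_eq_cl_iff (oo : Place K F) {A B : Divisor K F}
    (hdeg : Divisor.degree A = Divisor.degree B) :
    cl oo A = cl oo B ↔ ∃ u : F, u ≠ 0 ∧ A = B + divOf K u := by
  rw [← sub_eq_zero, ← map_sub, cl_eq_zero_iff, map_sub, hdeg, sub_self, Finsupp.single_zero,
    sub_zero, mem_principal_iff]
  refine exists_congr fun u => and_congr_right fun _ => ?_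
  rw [sub_eq_iff_eq_add, add_comm]

theorem cl_smul (σ : SemilinearAut K F) (oo : Place K F) (A : Divisor K F) :
    cl (σ • oo) (σ • A) = σ • cl oo A := by
  rw [cl_apply, cl_apply, SemilinearAut.pic0_smul_mk]
  congr 1
  apply Subtype.ext
  rw [coe_dz, SemilinearAut.coe_degZeroSMulHom, coe_dz, smul_sub, SemilinearAut.smul_single,
    SemilinearAut.degree_smul]

end cl

theorem smul_nonneg_divisor (σ : SemilinearAut K F) {A : Divisor K F} (hA : 0 ≤ A) :
    0 ≤ σ • A := by
  intro w
  rw [SemilinearAut.divisor_smul_apply]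
  exact hA _

section Rep

variable [IsAlgClosed K] [IsFF1 K F]

/-- `A` is an effective divisor of degree `g` representing `x`. -/
structure IsRep (oo : Place K F) (x : Pic0 K F) (A : Divisor K F) : Prop where
  nonneg : 0 ≤ A
  degree : Divisor.degree A = genusFF K F
  cl_eq : cl oo A = x

/-- the representative with the largest multiplicity at `oo`. -/
structure IsCanon (oo : Place K F) (x : Pic0 K F) (A : Divisor K F) : Prop where
  isRep : IsRep oo x A
  max : ∀ A' : Divisor K F, IsRep oo x A' → A' oo ≤ A oo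

theorem exists_isRep (oo : Place K F) (x : Pic0 K F) : ∃ A, IsRep oo x A := by
  obtain ⟨D, rfl⟩ := Pic0.mk_surjective x
  have hD : Divisor.degree (D : Divisor K F) = 0 := Divisor.mem_degZero.1 D.2
  obtain ⟨f, hf, hf0⟩ := exists_ne_zero_mem_L (K := K) (F := F)
    (D := (D : Divisor K F) + Finsupp.single oo (genusFF K F : ℤ))
    (by rw [map_add, hD, degree_single_one, zero_add])
  refine ⟨(D : Divisor K F) + Finsupp.single oo (genusFF K F : ℤ) + divOf K f,
    (mem_L_iff_divOf hf0).1 hf, ?_, ?_⟩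
  · rw [map_add, map_add, hD, degree_single_one, degree_divOf, zero_add, add_zero]
  · rw [map_add, map_add, cl_single, cl_divOf oo hf0, add_zero, add_zero, cl_coe]

theorem apply_le_degree {A : Divisor K F} (hA : 0 ≤ A) (v : Place K F) :
    A v ≤ Divisor.degree A := by
  classical
  have h1 : Finsupp.single v (A v) ≤ A := by
    intro w
    rw [Finsupp.single_apply]
    split_ifs with h
    · rw [h]
    · exact hA w
  have h2 := degree_mono h1
  rwa [degree_single_one] at h2

theorem exists_isCanon (oo : Place K F) (x : Pic0 K F) : ∃ A, IsCanon oo x A := by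
  obtain ⟨A₀, hA₀⟩ := exists_isRep oo x
  obtain ⟨n, ⟨A, hA, hAn⟩, hmax⟩ := Int.exists_greatest_of_bdd
    (P := fun n : ℤ => ∃ A, IsRep oo x A ∧ A oo = n)
    ⟨(genusFF K F : ℤ), by
      rintro z ⟨A, hA, rfl⟩
      exact hA.degree ▸ apply_le_degree hA.nonneg oo⟩
    ⟨A₀ oo, A₀, hA₀, rfl⟩
  exact ⟨A, hA, fun A' hA' => hAn ▸ hmax (A' oo) ⟨A', hA', rfl⟩⟩

/-- for the canonical representative `A`, `ℓ(A - A(oo)·oo) = 1`. -/
theorem IsCanon.ell_le_one {oo : Place K F} {x : Pic0 K F} {A : Divisor K F}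
    (h : IsCanon oo x A) : ell (A - Finsupp.single oo (A oo)) ≤ 1 := by
  by_contra hcon
  have h1 := ell_add_single_le (A - Finsupp.single oo (A oo) - Finsupp.single oo 1) oo
  rw [sub_add_cancel] at h1
  have h2 : 0 < ell (A - Finsupp.single oo (A oo) - Finsupp.single oo 1) := by omega
  have h3 : riemannRochSpace (A - Finsupp.single oo (A oo) - Finsupp.single oo 1) ≠ ⊥ := by
    intro hbot
    rw [ell, hbot] at h2
    simp at h2
  obtain ⟨f, hf, hf0⟩ := (Submodule.ne_bot_iff _).mp h3
  have h4 := (mem_L_iff_divOf hf0).1 hf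
  have hm : 0 ≤ A oo := h.isRep.nonneg oo
  have h5 : A + divOf K f = (A - Finsupp.single oo (A oo) - Finsupp.single oo 1 + divOf K f) +
      Finsupp.single oo (A oo + 1) := by
    rw [Finsupp.single_add]; abel
  have h6 : IsRep oo x (A + divOf K f) := by
    refine ⟨?_, ?_, ?_⟩
    · rw [h5]
      refine add_nonneg h4 ?_
      rw [← Finsupp.single_zero oo]
      exact Finsupp.single_le_single.2 (by omega)
    · rw [map_add, degree_divOf, add_zero, h.isRep.degree]
    · rw [map_add, cl_divOf oo hf0, add_zero, h.isRep.cl_eq]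
  have h7 := h.max _ h6
  have h8 : A oo + 1 ≤ (A + divOf K f) oo := by
    rw [h5, Finsupp.add_apply, Finsupp.single_eq_same]
    have := h4 oo
    rw [Finsupp.zero_apply] at this
    omega
  omega

theorem IsCanon.unique {oo : Place K F} {x : Pic0 K F} {A A' : Divisor K F}
    (h : IsCanon oo x A) (h' : IsCanon oo x A') : A = A' := by
  have hm : A' oo = A oo := le_antisymm (h.max _ h'.isRep) (h'.max _ h.isRep)
  obtain ⟨u, hu, hAu⟩ := (cl_eq_cl_iff oo (h'.isRep.degree.trans h.isRep.degree.symm)).1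
    (h'.isRep.cl_eq.trans h.isRep.cl_eq.symm)
  have key : ∀ B : Divisor K F, 0 ≤ B → 0 ≤ B - Finsupp.single oo (B oo) := by
    classical
    intro B hB w
    rw [Finsupp.zero_apply, Finsupp.sub_apply, Finsupp.single_apply]
    split_ifs with hw
    · rw [hw, sub_self]
    · rw [sub_zero]; exact hB w
  have h1 : (1 : F) ∈ riemannRochSpace (A - Finsupp.single oo (A oo)) := by
    rw [mem_L_iff_divOf one_ne_zero]
    have : divOf K (1 : F) = 0 := by
      rw [← map_one (algebraMap K F), divOf_algebraMap_eq_zero]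
    rw [this, add_zero]
    exact key A h.isRep.nonneg
  have h2 : u ∈ riemannRochSpace (A - Finsupp.single oo (A oo)) := by
    rw [mem_L_iff_divOf hu]
    have : A - Finsupp.single oo (A oo) + divOf K u = A' - Finsupp.single oo (A' oo) := by
      rw [hm, hAu]; abel
    rw [this]
    exact key A' h'.isRep.nonneg
  obtain ⟨v, hv⟩ := finrank_le_one_iff.1 h.ell_le_one
  obtain ⟨a, ha⟩ := hv ⟨1, h1⟩
  obtain ⟨b, hb⟩ := hv ⟨u, h2⟩
  have ha' : a • (v : F) = 1 := congrArg Subtype.val ha
  have hb' : b • (v : F) = u := congrArg Subtype.val hb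
  have ha0 : a ≠ 0 := by
    rintro rfl
    rw [zero_smul] at ha'
    exact zero_ne_one ha'
  have hu' : u = algebraMap K F (b / a) := by
    have hv' : (v : F) = a⁻¹ • (1 : F) := by rw [← ha', smul_smul, inv_mul_cancel₀ ha0, one_smul]
    rw [← hb', hv', smul_smul, Algebra.algebraMap_eq_smul_one, div_eq_mul_inv]
  rw [hAu, hu', divOf_algebraMap_eq_zero, add_zero]

theorem existsUnique_isCanon (oo : Place K F) (x : Pic0 K F) : ∃! A, IsCanon oo x A := by
  obtain ⟨A, hA⟩ := exists_isCanon oo x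
  exact ⟨A, hA, fun A' hA' => hA'.unique hA⟩

/-- **the canonical representative** `A_x`. -/
noncomputable def Ax (oo : Place K F) (x : Pic0 K F) : Divisor K F := (exists_isCanon oo x).choose

theorem isCanon_Ax (oo : Place K F) (x : Pic0 K F) : IsCanon oo x (Ax oo x) :=
  (exists_isCanon oo x).choose_spec

theorem Ax_nonneg (oo : Place K F) (x : Pic0 K F) : 0 ≤ Ax oo x := (isCanon_Ax oo x).isRep.nonneg

theorem degree_Ax (oo : Place K F) (x : Pic0 K F) : Divisor.degree (Ax oo x) = genusFF K F :=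
  (isCanon_Ax oo x).isRep.degree

theorem cl_Ax (oo : Place K F) (x : Pic0 K F) : cl oo (Ax oo x) = x := (isCanon_Ax oo x).isRep.cl_eq

theorem Ax_eq_of_isCanon {oo : Place K F} {x : Pic0 K F} {A : Divisor K F} (h : IsCanon oo x A) :
    Ax oo x = A := (isCanon_Ax oo x).unique h

theorem IsRep.smul (σ : SemilinearAut K F) {oo : Place K F} {x : Pic0 K F} {A : Divisor K F}
    (h : IsRep oo x A) : IsRep (σ • oo) (σ • x) (σ • A) :=
  ⟨smul_nonneg_divisor σ h.nonneg, by rw [SemilinearAut.degree_smul, h.degree],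
    by rw [cl_smul, h.cl_eq]⟩

theorem IsCanon.smul (σ : SemilinearAut K F) {oo : Place K F} {x : Pic0 K F} {A : Divisor K F}
    (h : IsCanon oo x A) : IsCanon (σ • oo) (σ • x) (σ • A) := by
  refine ⟨h.isRep.smul σ, fun A' hA' => ?_⟩
  have h1 := hA'.smul σ⁻¹
  rw [inv_smul_smul, inv_smul_smul] at h1
  have h2 := h.max _ h1
  rw [SemilinearAut.divisor_smul_apply, inv_inv] at h2
  rwa [SemilinearAut.divisor_smul_apply_smul]

/-- **equivariance**. -/
theorem Ax_smul (σ : SemilinearAut K F) (oo : Place K F) (x : Pic0 K F) :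
    Ax (σ • oo) (σ • x) = σ • Ax oo x :=
  Ax_eq_of_isCanon ((isCanon_Ax oo x).smul σ)

/-- if `σ` fixes `oo` and `x` then it fixes `A_x`. -/
theorem smul_Ax_eq (σ : SemilinearAut K F) {oo : Place K F} {x : Pic0 K F} (hoo : σ • oo = oo)
    (hx : σ • x = x) : σ • Ax oo x = Ax oo x := by
  rw [← Ax_smul, hoo, hx]

theorem Ax_add_rel (oo : Place K F) (x y : Pic0 K F) : ∃ u : F, u ≠ 0 ∧
    Ax oo (x + y) + Finsupp.single oo (genusFF K F : ℤ) = Ax oo x + Ax oo y + divOf K u := by
  refine (cl_eq_cl_iff oo ?_).1 ?_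
  · simp only [map_add, degree_Ax, degree_single_one]
  · simp only [map_add, cl_Ax, cl_single, add_zero]

theorem Ax_sub_rel (oo : Place K F) (x y : Pic0 K F) : ∃ u : F, u ≠ 0 ∧
    Ax oo (x - y) + Ax oo y = Ax oo x + Finsupp.single oo (genusFF K F : ℤ) + divOf K u := by
  refine (cl_eq_cl_iff oo ?_).1 ?_
  · simp only [map_add, degree_Ax, degree_single_one]
  · simp only [map_add, cl_Ax, cl_single, add_zero, sub_add_cancel]

/-- linearly equivalent canonical representatives belong to the same class. -/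
theorem Ax_inj {oo : Place K F} {x y : Pic0 K F} {u : F} (hu : u ≠ 0)
    (h : Ax oo x = Ax oo y + divOf K u) : x = y := by
  rw [← cl_Ax oo x, h, map_add, cl_divOf oo hu, add_zero, cl_Ax]

/-- (add_rel) in the shape of `HN.FO.GrpAx`. -/
theorem Ax_add_rel' (oo : Place K F) (x y : Pic0 K F) {E : Divisor K F}
    (hE : 3 * (genusFF K F : ℤ) ≤ Divisor.degree E) :
    ∃ c ∈ riemannRochSpace E, ∃ c' ∈ riemannRochSpace E, c ≠ 0 ∧ c' ≠ 0 ∧
      Ax oo (x + y) + Finsupp.single oo (genusFF K F : ℤ) + (divOf K c' + E) =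
        Ax oo x + Ax oo y + (divOf K c + E) := by
  obtain ⟨u, hu, h⟩ := Ax_add_rel oo x y
  obtain ⟨c, hc, c', hc', hc0, hc'0, -, -, hrel⟩ := exists_rel (E := E)
    (add_nonneg (Ax_nonneg oo (x + y))
      (by rw [← Finsupp.single_zero oo]; exact Finsupp.single_le_single.2 (Int.natCast_nonneg _)))
    (add_nonneg (Ax_nonneg oo x) (Ax_nonneg oo y)) hu h
    (by rw [map_add, degree_Ax, degree_Ax]; omega)
  exact ⟨c, hc, c', hc', hc0, hc'0, hrel⟩

/-- (sub_rel) in the shape of `HN.FO.GrpAx`. -/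
theorem Ax_sub_rel' (oo : Place K F) (x y : Pic0 K F) {E : Divisor K F}
    (hE : 3 * (genusFF K F : ℤ) ≤ Divisor.degree E) :
    ∃ c ∈ riemannRochSpace E, ∃ c' ∈ riemannRochSpace E, c ≠ 0 ∧ c' ≠ 0 ∧
      Ax oo (x - y) + Ax oo y + (divOf K c' + E) =
        Ax oo x + Finsupp.single oo (genusFF K F : ℤ) + (divOf K c + E) := by
  obtain ⟨u, hu, h⟩ := Ax_sub_rel oo x y
  obtain ⟨c, hc, c', hc', hc0, hc'0, -, -, hrel⟩ := exists_rel (E := E)
    (add_nonneg (Ax_nonneg oo (x - y)) (Ax_nonneg oo y))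
    (add_nonneg (Ax_nonneg oo x)
      (by rw [← Finsupp.single_zero oo]; exact Finsupp.single_le_single.2 (Int.natCast_nonneg _)))
    hu h
    (by rw [map_add, degree_Ax, degree_single_one]; omega)
  exact ⟨c, hc, c', hc', hc0, hc'0, hrel⟩

/-- (inj) in the shape of `HN.FO.GrpAx`. -/
theorem Ax_inj' {oo : Place K F} {x y : Pic0 K F} {f f' : F} (hf : f ≠ 0) (hf' : f' ≠ 0)
    {E G : Divisor K F} (h : divOf K f + E = Ax oo x + G) (h' : divOf K f' + E = Ax oo y + G) :
    x = y := by
  refine Ax_inj (oo := oo) (u := f * f'⁻¹) (mul_ne_zero hf (inv_ne_zero hf')) ?_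
  rw [divOf_mul hf (inv_ne_zero hf'), divOf_inv]
  have h1 : Ax oo x = divOf K f + E - G := by rw [h]; abel
  have h2 : Ax oo y = divOf K f' + E - G := by rw [h']; abel
  rw [h1, h2]; abel

end Rep

end Fermat.Agent.S17.FFK
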