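import Fermat.Agent.S17.FFK.CM

/-!
# S17 / FFK : (HP) hyperplanes `L(D - P) ⋖ L(D)`, (MC) `c · L(D) = L(D - div c)`, (REL) relations

* `IsReg.covBy_L`        : `c + 1 ≤ deg D ⟹ L(D - P) ⋖ L(D)`;
* `hp_mulMap_L`, `smul_L`, `span_mul_L` : `c · L(D) = L(D - div c)` in three languages;
* `hp_mul_le_left/right` : `L(D₁ - P) * L(D₂) ≤ L(D₁ + D₂ - P)` and symmetrically;
* `exists_rel`           : two linearly equivalent divisors `A ~ B`, `A ≤`-bounded:
                           `A + (div c' + E) = B + (div c + E)` with `c, c' ∈ L(E)` nonzero.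
-/

set_option autoImplicit false

namespace Fermat.Agent.S17.FFK

open AlgebraicCurve Fermat.Agent.S24.FF Fermat.Agent.GAL.FF

variable {K F : Type*} [Field K] [Field F] [Algebra K F]

/-- abstract: a subspace of codimension one in a finite dimensional subspace is covered by it. -/
theorem covBy_of_finrank_add_one {V : Type*} [AddCommGroup V] [Module K V] {S T : Submodule K V}
    [Module.Finite K T] (hle : S ≤ T) (h : Module.finrank K S + 1 = Module.finrank K T) :
    S ⋖ T := by
  have hlt : S < T := by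
    refine lt_of_le_of_ne hle ?_
    rintro rfl
    omega
  refine ⟨hlt, fun U h1 h2 => ?_⟩
  have : Module.Finite K U := Submodule.finiteDimensional_of_le h2.le
  have e1 := Submodule.finrank_lt_finrank_of_lt h1
  have e2 := Submodule.finrank_lt_finrank_of_lt h2
  omega

/-- **(HP)** -/
theorem IsReg.covBy_L [IsAlgClosed K] [IsFF1 K F] {c : ℤ} (h : IsReg K F c)
    {D : Divisor K F} (hD : c + 1 ≤ Divisor.degree D) (v : Place K F) :
    riemannRochSpace (D - Finsupp.single v 1) ⋖ riemannRochSpace D :=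
  covBy_of_finrank_add_one (L_mono (sub_single_le D v)) (h.ell_sub_single hD v)

/-- **(MC)**, `mulMap` form. -/
theorem hp_mulMap_L [IsFF1 K F] (D : Divisor K F) {c : F} (hc : c ≠ 0) :
    mulMap c (riemannRochSpace D) = riemannRochSpace (D - divOf K c) := by
  ext g
  rw [Submodule.mem_map]
  constructor
  · rintro ⟨x, hx, rfl⟩
    show c * x ∈ _
    rcases eq_or_ne x 0 with rfl | hx0
    · simp
    rw [mem_L_iff_divOf hx0] at hx
    rw [mem_L_iff_divOf (mul_ne_zero hc hx0), divOf_mul hc hx0]
    have : D - divOf K c + (divOf K c + divOf K x) = D + divOf K x := by abel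
    rw [this]
    exact hx
  · intro hg
    refine ⟨c⁻¹ * g, ?_, ?_⟩
    · rcases eq_or_ne g 0 with rfl | hg0
      · simp
      rw [mem_L_iff_divOf hg0] at hg
      rw [mem_L_iff_divOf (mul_ne_zero (inv_ne_zero hc) hg0),
        divOf_mul (inv_ne_zero hc) hg0, divOf_inv]
      have : D + (-divOf K c + divOf K g) = D - divOf K c + divOf K g := by abel
      rw [this]
      exact hg
    · show c * (c⁻¹ * g) = g
      rw [← mul_assoc, mul_inv_cancel₀ hc, one_mul]

theorem mulMap_eq_span_mul (c : F) (S : Submodule K F) :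
    mulMap c S = Submodule.span K {c} * S := by
  apply le_antisymm
  · exact mulMap_le_mul (Submodule.mem_span_singleton_self c)
  · rw [Submodule.mul_le]
    intro a ha b hb
    obtain ⟨r, rfl⟩ := Submodule.mem_span_singleton.1 ha
    refine ⟨r • b, S.smul_mem r hb, ?_⟩
    show c * (r • b) = r • c * b
    rw [mul_smul_comm, smul_mul_assoc]

/-- **(MC)**, `Submodule.mul` form. -/
theorem span_mul_L [IsFF1 K F] (D : Divisor K F) {c : F} (hc : c ≠ 0) :
    Submodule.span K {c} * riemannRochSpace D = riemannRochSpace (D - divOf K c) := by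
  rw [← mulMap_eq_span_mul, hp_mulMap_L D hc]

open Pointwise in
/-- **(MC)**, pointwise scalar multiplication form. -/
theorem smul_L [IsFF1 K F] (D : Divisor K F) {c : F} (hc : c ≠ 0) :
    c • riemannRochSpace D = riemannRochSpace (D - divOf K c) := by
  rw [← hp_mulMap_L D hc]
  ext x
  simp only [Submodule.mem_smul_pointwise_iff_exists, Submodule.mem_map, LinearMap.mulLeft_apply,
    smul_eq_mul]

/-- membership form of (MC). -/
theorem mul_mem_L_iff [IsFF1 K F] (D : Divisor K F) {c : F} (hc : c ≠ 0) (x : F) :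
    c * x ∈ riemannRochSpace (D - divOf K c) ↔ x ∈ riemannRochSpace D := by
  rw [← hp_mulMap_L D hc, Submodule.mem_map]
  constructor
  · rintro ⟨y, hy, hyx⟩
    have : c * y = c * x := hyx
    rwa [← mul_left_cancel₀ hc this]
  · intro hx
    exact ⟨x, hx, rfl⟩

/-- the hyperplanes are compatible with products (left). -/
theorem hp_mul_le_left (D₁ D₂ : Divisor K F) (v : Place K F) :
    riemannRochSpace (D₁ - Finsupp.single v 1) * riemannRochSpace D₂ ≤
      riemannRochSpace (D₁ + D₂ - Finsupp.single v 1) := by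
  have : D₁ + D₂ - Finsupp.single v 1 = (D₁ - Finsupp.single v 1) + D₂ := by abel
  rw [this]
  exact L_mul_le _ _

/-- the hyperplanes are compatible with products (right). -/
theorem hp_mul_le_right (D₁ D₂ : Divisor K F) (v : Place K F) :
    riemannRochSpace D₁ * riemannRochSpace (D₂ - Finsupp.single v 1) ≤
      riemannRochSpace (D₁ + D₂ - Finsupp.single v 1) := by
  have : D₁ + D₂ - Finsupp.single v 1 = D₁ + (D₂ - Finsupp.single v 1) := by abel
  rw [this]
  exact L_mul_le _ _

/-- nonzero sections exist in degree `≥ g`. -/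
theorem exists_ne_zero_mem_L [IsAlgClosed K] [IsFF1 K F] {D : Divisor K F}
    (hD : (genusFF K F : ℤ) ≤ Divisor.degree D) : ∃ f ∈ riemannRochSpace D, f ≠ 0 := by
  have h1 := riemann_ineq D
  have h2 : 0 < ell D := by omega
  have h3 : riemannRochSpace D ≠ ⊥ := by
    intro hbot
    rw [ell, hbot] at h2
    simp at h2
  obtain ⟨f, hf, hf0⟩ := (Submodule.ne_bot_iff _).mp h3
  exact ⟨f, hf, hf0⟩

/-- **(REL)**: if `A = B + div u` with `0 ≤ A`, and `deg E ≥ deg B + g`, then there are nonzero
`c, c' ∈ L(E)` with `A + (div c' + E) = B + (div c + E)`; moreover `c' ∈ L(E - B)` and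
`c = u c'`. -/
theorem exists_rel [IsAlgClosed K] [IsFF1 K F] {A B E : Divisor K F} (hA : 0 ≤ A) (hB : 0 ≤ B)
    {u : F} (hu : u ≠ 0) (hAB : A = B + divOf K u)
    (hE : Divisor.degree B + genusFF K F ≤ Divisor.degree E) :
    ∃ c ∈ riemannRochSpace E, ∃ c' ∈ riemannRochSpace E, c ≠ 0 ∧ c' ≠ 0 ∧
      c' ∈ riemannRochSpace (E - B) ∧ c = u * c' ∧
      A + (divOf K c' + E) = B + (divOf K c + E) := by
  obtain ⟨c', hc', hc'0⟩ := exists_ne_zero_mem_L (K := K) (F := F) (D := E - B)
    (by rw [map_sub]; omega)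
  have hle : E - B ≤ E := by
    intro v
    have := hB v
    simp only [Finsupp.sub_apply, Finsupp.zero_apply] at this ⊢
    omega
  have h1 := (mem_L_iff_divOf hc'0).1 hc'
  refine ⟨u * c', ?_, c', L_mono hle hc', mul_ne_zero hu hc'0, hc'0, hc', rfl, ?_⟩
  · rw [mem_L_iff_divOf (mul_ne_zero hu hc'0), divOf_mul hu hc'0]
    have : E + (divOf K u + divOf K c') = A + (E - B + divOf K c') := by rw [hAB]; abel
    rw [this]
    exact add_nonneg hA h1
  · rw [divOf_mul hu hc'0, hAB]; abel

end Fermat.Agent.S17.FFK
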