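import Fermat.Agent.S17.FFK.Defs

/-!
# S17 / FFK-H : `f * L(D) = L(D - div f)`
-/

set_option autoImplicit false

namespace Fermat.Agent.S17.FFK

open AlgebraicCurve Fermat.Agent.S24.FF Fermat.Agent.GAL.FF

variable {K F : Type*} [Field K] [Field F] [Algebra K F]

theorem mulMap_L [IsFF1 K F] {f : F} (hf : f ≠ 0) (D : Divisor K F) :
    mulMap f (riemannRochSpace D) = riemannRochSpace (D - divOf K f) := by
  ext g
  rw [Submodule.mem_map]
  constructor
  · rintro ⟨x, hx, rfl⟩
    show f * x ∈ _
    rcases eq_or_ne x 0 with rfl | hx0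
    · simp
    rw [mem_L_iff_divOf hx0] at hx
    rw [mem_L_iff_divOf (mul_ne_zero hf hx0), divOf_mul hf hx0]
    have : D - divOf K f + (divOf K f + divOf K x) = D + divOf K x := by abel
    rw [this]
    exact hx
  · intro hg
    refine ⟨f⁻¹ * g, ?_, ?_⟩
    · rcases eq_or_ne g 0 with rfl | hg0
      · simp
      rw [mem_L_iff_divOf hg0] at hg
      rw [mem_L_iff_divOf (mul_ne_zero (inv_ne_zero hf) hg0),
        divOf_mul (inv_ne_zero hf) hg0, divOf_inv]
      have : D + (-divOf K f + divOf K g) = D - divOf K f + divOf K g := by abel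
      rw [this]
      exact hg
    · show f * (f⁻¹ * g) = g
      rw [← mul_assoc, mul_inv_cancel₀ hf, one_mul]

end Fermat.Agent.S17.FFK
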