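import Fermat.Agent.S17.FFK.Defs
import Fermat.Agent.S17.FFK.CL

/-!
# S17 / FFK-C : a subspace with base divisor `D` contains a base point free pencil; `W * L(E) = L(D+E)`

(thin wrappers around `FFK/CL.lean`: `IsBase W D ↔ IsBaseDiv W D`.)
-/

set_option autoImplicit false

namespace Fermat.Agent.S17.FFK

open AlgebraicCurve Fermat.Agent.S24.FF Fermat.Agent.GAL.FF

variable {K F : Type*} [Field K] [Field F] [Algebra K F]

theorem pencil_isBase_iff {W : Submodule K F} {D : Divisor K F} :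
    IsBase W D ↔ IsBaseDiv W D :=
  ⟨fun h => ⟨h.1, h.2⟩, fun h => ⟨h.le, h.exact⟩⟩

/-- the base divisor of a subspace has degree `≥ 0`. -/
theorem pencil_degree_nonneg [IsAlgClosed K] [IsFF1 K F] {W : Submodule K F} {D : Divisor K F}
    (h : IsBase W D) : 0 ≤ Divisor.degree D := by
  obtain ⟨v⟩ := nonempty_place (K := K) (F := F)
  obtain ⟨f, hf, hf0, -⟩ := h.2 v
  by_contra hneg
  have hbot := L_eq_bot_of_degree_neg (K := K) (F := F) (D := D) (not_le.1 hneg)
  have : f ∈ (⊥ : Submodule K F) := hbot ▸ h.1 hf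
  exact hf0 ((Submodule.mem_bot K).1 this)

theorem IsBase.exists_pencil [IsAlgClosed K] [IsFF1 K F] {W : Submodule K F} {D : Divisor K F}
    (h : IsBase W D) : ∃ f ∈ W, ∃ g ∈ W, f ≠ 0 ∧ g ≠ 0 ∧
      ∀ v : Place K F, min (v.ord f) (v.ord g) = - D v :=
  (pencil_isBase_iff.1 h).exists_pencil

theorem IsBase.mul_L [IsAlgClosed K] [IsFF1 K F] {W : Submodule K F} {D : Divisor K F}
    (h : IsBase W D) {c : ℤ} (hc : IsReg K F c) (E : Divisor K F)
    (hE : Divisor.degree D + c ≤ Divisor.degree E) :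
    W * riemannRochSpace E = riemannRochSpace (D + E) := by
  have h0 := pencil_degree_nonneg h
  exact hc.mul_L_of_isBaseDiv (pencil_isBase_iff.1 h) (by omega) hE (by omega)

end Fermat.Agent.S17.FFK
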