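import Fermat.Agent.S17.FFK.Defs

/-!
# S17 / FFK-G : leading coefficient functionals `φ_D : L(D) → K` at a place `P`
-/

set_option autoImplicit false

namespace Fermat.Agent.S17.FFK

open AlgebraicCurve Fermat.Agent.S24.FF Fermat.Agent.GAL.FF

variable {K F : Type*} [Field K] [Field F] [Algebra K F]

/-- the residue field at `P` is `K` -/
noncomputable def phi_equiv [IsAlgClosed K] [IsFF1 K F] (P : Place K F) :
    K ≃ₐ[K] P.ResidueField :=
  AlgEquiv.ofBijective (Algebra.ofId K P.ResidueField)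
    (algebraMap_residueField_bijective (K := K) P)

/-- the value at `P` of an element of the valuation ring -/
noncomputable def phi_val [IsAlgClosed K] [IsFF1 K F] (P : Place K F) :
    P.toValuationSubring →ₐ[K] K :=
  ((phi_equiv P).symm : P.ResidueField →ₐ[K] K).comp
    (IsScalarTower.toAlgHom K P.toValuationSubring P.ResidueField)

theorem phi_val_apply [IsAlgClosed K] [IsFF1 K F] (P : Place K F)
    (y : P.toValuationSubring) :
    phi_val P y = (phi_equiv P).symm (IsLocalRing.residue P.toValuationSubring y) := rfl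

theorem phi_val_eq_zero_iff [IsAlgClosed K] [IsFF1 K F] (P : Place K F)
    (y : P.toValuationSubring) :
    phi_val P y = 0 ↔ y ∈ IsLocalRing.maximalIdeal P.toValuationSubring := by
  rw [phi_val_apply, EmbeddingLike.map_eq_zero_iff, IsLocalRing.residue_eq_zero_iff]

theorem phi_mem_maximalIdeal_iff (P : Place K F) (y : P.toValuationSubring) :
    y ∈ IsLocalRing.maximalIdeal P.toValuationSubring ↔ (y : F) = 0 ∨ 0 < P.ord (y : F) := by
  constructor
  · intro h
    by_cases h0 : y = 0
    · left; rw [h0]; rfl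
    · right; exact ord_pos_of_mem_maximalIdeal P h h0
  · rintro (h | h)
    · have : y = 0 := Subtype.ext h
      rw [this]; exact zero_mem _
    · by_contra hcon
      rw [IsLocalRing.mem_maximalIdeal, mem_nonunits_iff, not_not] at hcon
      obtain ⟨u, rfl⟩ := hcon
      rw [P.ord_coe_unit u] at h
      exact lt_irrefl _ h

theorem phi_mul_mem (P : Place K F) {π : F} (hπ : P.ord π = 1) (D : Divisor K F) {f : F}
    (hf : f ∈ riemannRochSpace D) : f * π ^ (D P) ∈ P.toValuationSubring := by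
  rcases eq_or_ne f 0 with rfl | hf0
  · rw [zero_mul]; exact zero_mem _
  · have hπ0 : π ≠ 0 := ne_zero_of_ord_ne_zero P (by rw [hπ]; exact one_ne_zero)
    apply mem_toValuationSubring_of_ord_nonneg
    rw [P.ord_mul hf0 (zpow_ne_zero _ hπ0), P.ord_zpow, hπ, mul_one]
    have := ((mem_riemannRochSpace_iff.1 hf) P).resolve_left hf0
    omega

/-- the functional `f ↦ (f π^{D(P)})(P)` -/
noncomputable def phi_fun [IsAlgClosed K] [IsFF1 K F] (P : Place K F) {π : F} (hπ : P.ord π = 1)
    (D : Divisor K F) : riemannRochSpace D →ₗ[K] K where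
  toFun f := phi_val P ⟨(f : F) * π ^ (D P), phi_mul_mem P hπ D f.2⟩
  map_add' f g := by
    rw [← map_add]
    congr 1
    apply Subtype.ext
    show ((f : F) + (g : F)) * π ^ (D P) = (f : F) * π ^ (D P) + (g : F) * π ^ (D P)
    ring
  map_smul' c f := by
    rw [RingHom.id_apply, ← map_smul]
    congr 1
    apply Subtype.ext
    rw [Algebra.smul_def]
    show (c • (f : F)) * π ^ (D P) = algebraMap K F c * ((f : F) * π ^ (D P))
    rw [Algebra.smul_def, mul_assoc]

theorem phi_fun_apply [IsAlgClosed K] [IsFF1 K F] (P : Place K F) {π : F} (hπ : P.ord π = 1)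
    (D : Divisor K F) (f : riemannRochSpace D) :
    phi_fun P hπ D f = phi_val P ⟨(f : F) * π ^ (D P), phi_mul_mem P hπ D f.2⟩ := rfl

theorem phi_fun_eq_zero_iff [IsAlgClosed K] [IsFF1 K F] (P : Place K F) {π : F}
    (hπ : P.ord π = 1) (D : Divisor K F) (f : riemannRochSpace D) :
    phi_fun P hπ D f = 0 ↔ (f : F) ∈ riemannRochSpace (D - Finsupp.single P 1) := by
  have hπ0 : π ≠ 0 := ne_zero_of_ord_ne_zero P (by rw [hπ]; exact one_ne_zero)
  rw [phi_fun_apply, phi_val_eq_zero_iff, phi_mem_maximalIdeal_iff]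
  show ((f : F) * π ^ (D P) = 0 ∨ 0 < P.ord ((f : F) * π ^ (D P))) ↔ _
  rcases eq_or_ne (f : F) 0 with hf0 | hf0
  · rw [hf0, zero_mul]
    simp
  · rw [mem_L_sub_single_iff f.2 hf0, P.ord_mul hf0 (zpow_ne_zero _ hπ0), P.ord_zpow, hπ,
      mul_one]
    have h1 := ((mem_riemannRochSpace_iff.1 f.2) P).resolve_left hf0
    have h2 : (f : F) * π ^ (D P) ≠ 0 := mul_ne_zero hf0 (zpow_ne_zero _ hπ0)
    constructor
    · rintro (h | h)
      · exact absurd h h2
      · omega
    · intro h
      right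
      omega

theorem phi_fun_mul [IsAlgClosed K] [IsFF1 K F] (P : Place K F) {π : F}
    (hπ : P.ord π = 1) (D E : Divisor K F) (f : riemannRochSpace D) (l : riemannRochSpace E)
    (h : (f : F) * (l : F) ∈ riemannRochSpace (D + E)) :
    phi_fun P hπ (D + E) ⟨(f : F) * (l : F), h⟩ = phi_fun P hπ D f * phi_fun P hπ E l := by
  have hπ0 : π ≠ 0 := ne_zero_of_ord_ne_zero P (by rw [hπ]; exact one_ne_zero)
  rw [phi_fun_apply, phi_fun_apply, phi_fun_apply, ← map_mul]
  congr 1
  apply Subtype.ext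
  show ((f : F) * (l : F)) * π ^ ((D + E) P) = ((f : F) * π ^ (D P)) * ((l : F) * π ^ (E P))
  rw [Finsupp.add_apply, zpow_add₀ hπ0]
  ring

theorem exists_phi [IsAlgClosed K] [IsFF1 K F] (P : Place K F) :
    ∃ φ : ∀ D : Divisor K F, riemannRochSpace D →ₗ[K] K,
      (∀ D (f : riemannRochSpace D),
        φ D f = 0 ↔ (f : F) ∈ riemannRochSpace (D - Finsupp.single P 1)) ∧
      (∀ (D E : Divisor K F) (f : riemannRochSpace D) (l : riemannRochSpace E)
        (h : (f : F) * (l : F) ∈ riemannRochSpace (D + E)),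
        φ (D + E) ⟨(f : F) * (l : F), h⟩ = φ D f * φ E l) := by
  obtain ⟨π, hπ⟩ := exists_ord_eq_one P
  exact ⟨fun D => phi_fun P hπ D, phi_fun_eq_zero_iff P hπ, phi_fun_mul P hπ⟩

end Fermat.Agent.S17.FFK
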