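import Fermat.Agent.S17.FFK.Defs

/-!
# S17 / FFK-I : the reduced representative of a divisor class of degree `g`

For a fixed place `oo`, every divisor class of degree `g` contains a unique effective divisor with
maximal multiplicity at `oo`.
-/

set_option autoImplicit false

namespace Fermat.Agent.S17.FFK

open AlgebraicCurve Fermat.Agent.S24.FF Fermat.Agent.GAL.FF

variable {K F : Type*} [Field K] [Field F] [Algebra K F]

theorem red_mem_principal_iff [IsFF1 K F] {D : Divisor K F} :
    D ∈ Divisor.principal (K := K) (F := F) ↔ ∃ f : F, f ≠ 0 ∧ D = divOf K f := by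
  constructor
  · rintro ⟨f, hf, h⟩
    exact ⟨f, hf, by ext v; rw [h v, divOf_apply]⟩
  · rintro ⟨f, hf, rfl⟩
    exact ⟨f, hf, fun v => rfl⟩

theorem red_single_le {A : Divisor K F} (hA : 0 ≤ A) (v : Place K F) :
    Finsupp.single v (A v) ≤ A := by
  classical
  intro w
  rw [Finsupp.single_apply]
  split_ifs with h
  · subst h; exact le_rfl
  · exact hA w

theorem red_apply_le_degree [IsAlgClosed K] [IsFF1 K F] {A : Divisor K F} (hA : 0 ≤ A)
    (v : Place K F) : A v ≤ Divisor.degree A := by
  have := degree_mono (red_single_le hA v)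
  rwa [degree_single_one] at this

theorem red_degree_eq [IsAlgClosed K] [IsFF1 K F] {A D : Divisor K F}
    (h : A - D ∈ Divisor.principal (K := K) (F := F)) :
    Divisor.degree A = Divisor.degree D := by
  obtain ⟨f, -, hf⟩ := red_mem_principal_iff.mp h
  have h1 : Divisor.degree (A - D) = 0 := by rw [hf, degree_divOf]
  rw [map_sub] at h1
  omega

theorem red_exists_effective [IsAlgClosed K] [IsFF1 K F] (D : Divisor K F)
    (hD : Divisor.degree D = genusFF K F) :
    ∃ A : Divisor K F, 0 ≤ A ∧ A - D ∈ Divisor.principal (K := K) (F := F) := by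
  have h1 := riemann_ineq D
  have h2 : 0 < ell D := by omega
  obtain ⟨f, hf0, hf⟩ := riemannIneq_exists_ne_zero h2
  refine ⟨D + divOf K f, (mem_L_iff_divOf hf0).mp hf, red_mem_principal_iff.mpr ⟨f, hf0, ?_⟩⟩
  abel

/-- two distinct equivalent effective divisors with the same multiplicity at `oo` can be moved to
an equivalent effective divisor with a bigger multiplicity at `oo`. -/
theorem red_exists_bigger [IsAlgClosed K] [IsFF1 K F] (oo : Place K F) {A B : Divisor K F}
    (hA : 0 ≤ A) (hB : 0 ≤ B) (hAB : B - A ∈ Divisor.principal (K := K) (F := F))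
    (hoo : A oo = B oo) (hne : A ≠ B) :
    ∃ C : Divisor K F, 0 ≤ C ∧ C - A ∈ Divisor.principal (K := K) (F := F) ∧ A oo < C oo := by
  classical
  obtain ⟨h, hh0, hh⟩ := red_mem_principal_iff.mp hAB
  set E : Divisor K F := A - Finsupp.single oo (A oo) with hE
  have h1E : (1 : F) ∈ riemannRochSpace E := by
    rw [mem_L_iff_divOf one_ne_zero]
    have : divOf K (1 : F) = 0 := by ext v; simp
    rw [this, add_zero, hE]
    exact sub_nonneg.mpr (red_single_le hA oo)
  have hhE : h ∈ riemannRochSpace E := by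
    rw [mem_L_iff_divOf hh0, ← hh, hE]
    have : A - Finsupp.single oo (A oo) + (B - A) = B - Finsupp.single oo (B oo) := by
      rw [hoo]; abel
    rw [this]
    exact sub_nonneg.mpr (red_single_le hB oo)
  have hli : LinearIndependent K
      ![(⟨1, h1E⟩ : riemannRochSpace E), (⟨h, hhE⟩ : riemannRochSpace E)] := by
    rw [LinearIndependent.pair_iff]
    intro s t hst
    have hst' : s • (1 : F) + t • h = 0 := congrArg Subtype.val hst
    by_cases ht : t = 0
    · subst ht
      rw [zero_smul, add_zero, smul_eq_zero] at hst'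
      exact ⟨hst'.resolve_right one_ne_zero, rfl⟩
    · exfalso
      apply hne
      have hc : h = algebraMap K F (-(t⁻¹ * s)) := by
        have h3 : t • h = -(s • (1 : F)) := eq_neg_of_add_eq_zero_right hst'
        have h4 : h = t⁻¹ • (t • h) := by rw [smul_smul, inv_mul_cancel₀ ht, one_smul]
        rw [h4, h3, Algebra.algebraMap_eq_smul_one, smul_neg, smul_smul, neg_smul]
      have h0 : divOf K h = 0 := by
        ext v
        rw [divOf_apply, hc, ord_algebraMap, Finsupp.zero_apply]
      rw [h0] at hh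
      exact (sub_eq_zero.mp hh).symm
  have h2 : 2 ≤ ell E := by
    have := hli.fintype_card_le_finrank
    simpa using this
  have h3 : ell E ≤ ell (E - Finsupp.single oo 1) + 1 := by
    have := ell_add_single_le (E - Finsupp.single oo 1) oo
    rwa [sub_add_cancel] at this
  obtain ⟨u, hu0, hu⟩ := riemannIneq_exists_ne_zero (D := E - Finsupp.single oo 1) (by omega)
  rw [mem_L_iff_divOf hu0] at hu
  refine ⟨A + divOf K u, ?_, red_mem_principal_iff.mpr ⟨u, hu0, by abel⟩, ?_⟩
  · intro w
    have hw := hu w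
    have hAw : (0 : ℤ) ≤ A w := hA w
    simp only [hE, Finsupp.add_apply, Finsupp.sub_apply, Finsupp.zero_apply,
      Finsupp.single_apply] at hw ⊢
    split_ifs at hw with hwo
    · subst hwo; omega
    · omega
  · have hw := hu oo
    simp only [hE, Finsupp.add_apply, Finsupp.sub_apply, Finsupp.zero_apply,
      Finsupp.single_eq_same] at hw ⊢
    omega

theorem existsUnique_reduced [IsAlgClosed K] [IsFF1 K F] (oo : Place K F) (D : Divisor K F)
    (hD : Divisor.degree D = genusFF K F) :
    ∃! A : Divisor K F, (0 ≤ A ∧ A - D ∈ Divisor.principal (K := K) (F := F)) ∧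
      ∀ A' : Divisor K F, 0 ≤ A' → A' - D ∈ Divisor.principal (K := K) (F := F) → A' oo ≤ A oo := by
  obtain ⟨A₀, hA₀, hA₀D⟩ := red_exists_effective D hD
  obtain ⟨n, ⟨A, hA, hAD, rfl⟩, hmax⟩ := Int.exists_greatest_of_bdd
    (P := fun n : ℤ => ∃ A : Divisor K F, 0 ≤ A ∧
      A - D ∈ Divisor.principal (K := K) (F := F) ∧ A oo = n)
    ⟨genusFF K F, by
      rintro z ⟨A, hA, hAD, rfl⟩
      rw [← hD, ← red_degree_eq hAD]
      exact red_apply_le_degree hA oo⟩
    ⟨A₀ oo, A₀, hA₀, hA₀D, rfl⟩
  refine ⟨A, ⟨⟨hA, hAD⟩, fun A' h1 h2 => hmax _ ⟨A', h1, h2, rfl⟩⟩, ?_⟩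
  rintro B ⟨⟨hB, hBD⟩, hBmax⟩
  by_contra hne
  have hoo : A oo = B oo := le_antisymm (hBmax A hA hAD) (hmax _ ⟨B, hB, hBD, rfl⟩)
  have hBA : B - A ∈ Divisor.principal (K := K) (F := F) := by
    have := sub_mem hBD hAD
    rwa [sub_sub_sub_cancel_right] at this
  obtain ⟨C, hC, hCA, hlt⟩ := red_exists_bigger oo hA hB hBA hoo (Ne.symm hne)
  have hCD : C - D ∈ Divisor.principal (K := K) (F := F) := by
    have := add_mem hCA hAD
    rwa [sub_add_sub_cancel] at this
  have := hmax _ ⟨C, hC, hCD, rfl⟩
  omega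

end Fermat.Agent.S17.FFK
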