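import Fermat.Agent.GAL.FF.Riemann

/-!
# S17 / FFK : regularity bounds for a function field over an algebraically closed field

`IsReg K F c` : every divisor of degree `≥ c` is non-special (`ℓ(D) = deg D + 1 - g`).
Consequences: base point freeness in degree `≥ c + 1`, general members.
-/

set_option autoImplicit false

namespace Fermat.Agent.S17.FFK

open AlgebraicCurve Fermat.Agent.S24.FF Fermat.Agent.GAL.FF

variable {K F : Type*} [Field K] [Field F] [Algebra K F]

variable (K F) in
/-- `c` is a regularity bound: all divisors of degree `≥ c` are non-special. -/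
def IsReg (c : ℤ) : Prop :=
  ∀ D : Divisor K F, c ≤ Divisor.degree D →
    (ell D : ℤ) = Divisor.degree D + 1 - genusFF K F

theorem IsReg.mono {c c' : ℤ} (h : IsReg K F c) (hc : c ≤ c') : IsReg K F c' :=
  fun D hD => h D (hc.trans hD)

variable (K F) in
theorem exists_isReg [IsAlgClosed K] [IsFF1 K F] : ∃ c : ℤ, IsReg K F c := by
  obtain ⟨c, hc⟩ := exists_degree_bound K F
  exact ⟨c, fun D hD => (hc D hD).2⟩

/-- one non-special divisor gives an explicit regularity bound. -/
theorem isReg_of_ell_eq [IsAlgClosed K] [IsFF1 K F] {D₀ : Divisor K F}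
    (h0 : (ell D₀ : ℤ) = Divisor.degree D₀ + 1 - genusFF K F) :
    IsReg K F (Divisor.degree D₀ + genusFF K F) :=
  exists_ell_eq_of_degree_ge riemann_ineq h0

theorem sub_single_le (D : Divisor K F) (v : Place K F) : D - Finsupp.single v 1 ≤ D := by
  intro w
  simp only [Finsupp.sub_apply]
  have : (0 : ℤ) ≤ Finsupp.single v (1 : ℤ) w := by
    classical
    rw [Finsupp.single_apply]; split_ifs <;> simp
  omega

theorem IsReg.ell_sub_single [IsAlgClosed K] [IsFF1 K F] {c : ℤ} (h : IsReg K F c)
    {D : Divisor K F} (hD : c + 1 ≤ Divisor.degree D) (v : Place K F) :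
    ell (D - Finsupp.single v 1) + 1 = ell D := by
  have h1 := h D (by omega)
  have h2 := h (D - Finsupp.single v 1) (by rw [map_sub, degree_single_one]; omega)
  rw [map_sub, degree_single_one] at h2
  omega

/-- a regularity bound is `≥ g - 1`; in particular degrees `≥ c + 1` are `≥ g ≥ 0`. -/
theorem IsReg.genus_le [IsAlgClosed K] [IsFF1 K F] {c : ℤ} (h : IsReg K F c)
    {D : Divisor K F} (hD : c + 1 ≤ Divisor.degree D) : (genusFF K F : ℤ) ≤ Divisor.degree D := by
  obtain ⟨v⟩ := nonempty_place (K := K) (F := F)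
  have h2 := h (D - Finsupp.single v 1) (by rw [map_sub, degree_single_one]; omega)
  rw [map_sub, degree_single_one] at h2
  omega

theorem IsReg.degree_nonneg [IsAlgClosed K] [IsFF1 K F] {c : ℤ} (h : IsReg K F c)
    {D : Divisor K F} (hD : c + 1 ≤ Divisor.degree D) : 0 ≤ Divisor.degree D :=
  (Int.natCast_nonneg _).trans (h.genus_le hD)

/-- membership in `L(D - v)`. -/
theorem mem_L_sub_single_iff {D : Divisor K F} {v : Place K F} {f : F}
    (hf : f ∈ riemannRochSpace D) (hf0 : f ≠ 0) :
    f ∈ riemannRochSpace (D - Finsupp.single v 1) ↔ v.ord f ≠ - D v := by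
  classical
  rw [mem_riemannRochSpace_iff] at hf ⊢
  constructor
  · intro h
    have := (h v).resolve_left hf0
    simp only [Finsupp.sub_apply, Finsupp.single_eq_same] at this
    omega
  · intro h w
    right
    have hw := (hf w).resolve_left hf0
    by_cases hwv : w = v
    · subst hwv
      simp only [Finsupp.sub_apply, Finsupp.single_eq_same]
      omega
    · simp only [Finsupp.sub_apply, Finsupp.single_apply, if_neg (Ne.symm hwv), sub_zero]
      exact hw

/-- **general member**: in degree `≥ c + 1` there is a section with exact pole order `D v` at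
all places of a given finite set. -/
theorem IsReg.exists_ord_eq [IsAlgClosed K] [IsFF1 K F] {c : ℤ} (h : IsReg K F c)
    {D : Divisor K F} (hD : c + 1 ≤ Divisor.degree D) (W : Finset (Place K F)) :
    ∃ f ∈ riemannRochSpace D, f ≠ 0 ∧ ∀ v ∈ W, v.ord f = - D v := by
  classical
  obtain ⟨v₀⟩ := nonempty_place (K := K) (F := F)
  let p : Place K F → Subspace K (riemannRochSpace D) := fun v =>
    (riemannRochSpace (D - Finsupp.single v 1)).submoduleOf (riemannRochSpace D)
  have hp : ∀ v, p v ≠ ⊤ := by
    intro v hv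
    have hle : riemannRochSpace D ≤ riemannRochSpace (D - Finsupp.single v 1) := by
      intro x hx
      have : (⟨x, hx⟩ : riemannRochSpace D) ∈ p v := by rw [hv]; trivial
      exact this
    have h1 : ell D ≤ ell (D - Finsupp.single v 1) := Submodule.finrank_mono hle
    have h2 := h.ell_sub_single hD v
    omega
  have hs : (⊤ : Subspace K (riemannRochSpace D)) ∉ (insert v₀ W).image p := by
    intro hmem
    obtain ⟨v, -, hv⟩ := Finset.mem_image.1 hmem
    exact hp v hv
  have hne := Subspace.biUnion_ne_univ_of_top_notMem hs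
  obtain ⟨x, hx⟩ := (Set.ne_univ_iff_exists_notMem _).1 hne
  simp only [Set.mem_iUnion, not_exists, Finset.mem_image] at hx
  have hx' : ∀ v ∈ insert v₀ W, (x : F) ∉ riemannRochSpace (D - Finsupp.single v 1) :=
    fun v hv hmem => hx (p v) ⟨v, hv, rfl⟩ hmem
  have hx0 : (x : F) ≠ 0 := by
    intro h0
    exact hx' v₀ (Finset.mem_insert_self _ _) (h0 ▸ Submodule.zero_mem _)
  refine ⟨x, x.2, hx0, fun v hv => ?_⟩
  by_contra hcon
  exact hx' v (Finset.mem_insert_of_mem hv) ((mem_L_sub_single_iff x.2 hx0).2 hcon)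

/-- **base point free pencil** in degree `≥ c + 1`. -/
theorem IsReg.exists_pencil [IsAlgClosed K] [IsFF1 K F] {c : ℤ} (h : IsReg K F c)
    {D : Divisor K F} (hD : c + 1 ≤ Divisor.degree D) :
    ∃ f ∈ riemannRochSpace D, ∃ g ∈ riemannRochSpace D, f ≠ 0 ∧ g ≠ 0 ∧
      ∀ v : Place K F, min (v.ord f) (v.ord g) = - D v := by
  classical
  obtain ⟨f, hf, hf0, -⟩ := h.exists_ord_eq hD ∅
  obtain ⟨g, hg, hg0, hgW⟩ := h.exists_ord_eq hD (D + divOf K f).support
  refine ⟨f, hf, g, hg, hf0, hg0, fun v => ?_⟩
  have h1 := ((mem_riemannRochSpace_iff.1 hf) v).resolve_left hf0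
  have h2 := ((mem_riemannRochSpace_iff.1 hg) v).resolve_left hg0
  by_cases hv : v ∈ (D + divOf K f).support
  · rw [hgW v hv]; exact min_eq_right h1
  · rw [Finsupp.notMem_support_iff, Finsupp.add_apply, divOf_apply] at hv
    have : v.ord f = - D v := by omega
    rw [this]; exact min_eq_left h2

end Fermat.Agent.S17.FFK
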