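import Fermat.Agent.S24.FF.RiemannHurwitz

/-!
# S17 / FFK-4 : for `t ∉ K`, all zeros of `t - c` are simple for all but finitely many `c ∈ K`
(characteristic `0`).

PROOF.  `A = Apoly K t = K[t]`, `B = Bint K t` its integral closure in `F` (`S24/FF/Dedekind.lean`: `isPID_Apoly`,
`isDedekind_Bint`, `isFractionRing_Bint`, `finite_Bint`).  The different `𝔡 = differentIdeal A B` is `≠ ⊥`
(`differentIdeal_ne_bot`; `Frac B / Frac A` is algebraic in characteristic `0`, so separable), so it has finitely many prime
factors (`Ideal.finite_factors`).  Let `2 ≤ ord_v (t - c)`.  Then `t ∈ O_v`, `B ≤ O_v` (`Bint_le`), so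
`v = Place.ofHeightOneSpectrum P` (`exists_heightOneSpectrum_of_le`, `Place.ext`), `t - c ∈ P ^ 2`
(`ord_ofHeightOneSpectrum`, `HeightOneSpectrum.intValuation_le_pow_iff_mem`), i.e. `P ^ 2 ∣ 𝔭 B` for the maximal ideal
`𝔭 = (t - c)` of `A`, so `P ∣ 𝔡` by `pow_sub_one_dvd_differentIdeal` (`e = 2`).
-/

set_option autoImplicit false

namespace Fermat.Agent.S17.FFK

open AlgebraicCurve Fermat.Agent.S24.FF IntermediateField IsDedekindDomain
open scoped IntermediateField.algebraAdjoinAdjoin

section general

attribute [local instance] FractionRing.liftAlgebra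

theorem Simple_general (A B : Type*) [CommRing A] [CommRing B] [Algebra A B] [IsDedekindDomain A]
    [IsDedekindDomain B] [Module.IsTorsionFree A B] [Module.Finite A B] [CharZero A] :
    differentIdeal A B ≠ ⊥ ∧ ∀ (p : Ideal A) (_ : p.IsMaximal) (P : Ideal B), p ≠ ⊥ →
      P ^ 2 ∣ p.map (algebraMap A B) → P ∣ differentIdeal A B := by
  have hc1 : CharZero (FractionRing A) := charZero_of_injective_algebraMap
    (IsFractionRing.injective A (FractionRing A))
  have halg : Algebra.IsAlgebraic (FractionRing A) (FractionRing B) := inferInstance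
  have hsep : Algebra.IsSeparable (FractionRing A) (FractionRing B) := inferInstance
  refine ⟨differentIdeal_ne_bot, fun p hp P hne hdvd => ?_⟩
  have := pow_sub_one_dvd_differentIdeal A P 2 hne hdvd
  simpa using this

end general

variable {K F : Type*} [Field K] [Field F] [Algebra K F]

/-- `t - c` as an element of `K[t]`. -/
noncomputable abbrev Simple_a (K : Type*) {F : Type*} [Field K] [Field F] [Algebra K F] (t : F) (c : K) :
    Apoly K t := tA K t - algebraMap K (Apoly K t) c

theorem Simple_irreducible {t : F} (ht : Transcendental K t) (c : K) :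
    Irreducible (Simple_a K t c) := by
  have h : (Polynomial.algEquivOfTranscendental K t ht) (Polynomial.X - Polynomial.C c)
      = Simple_a K t c := by
    apply Subtype.ext
    simp
  rw [← h]
  exact (MulEquiv.irreducible_iff (Polynomial.algEquivOfTranscendental K t ht).toMulEquiv).mpr
    (Polynomial.irreducible_X_sub_C c)

theorem Simple_isMaximal {t : F} (ht : Transcendental K t) (c : K) :
    (Ideal.span {Simple_a K t c}).IsMaximal := by
  have := isPID_Apoly ht
  exact PrincipalIdealRing.isMaximal_of_irreducible (Simple_irreducible ht c)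

theorem Simple_ne_bot {t : F} (ht : Transcendental K t) (c : K) :
    Ideal.span {Simple_a K t c} ≠ ⊥ := by
  rw [Ne, Ideal.span_singleton_eq_bot]
  exact (Simple_irreducible ht c).ne_zero

/-- the places where some `t - c` has a multiple zero are finite in number. -/
theorem finite_ramified_places [IsAlgClosed K] [CharZero K] [IsFF1 K F] {t : F}
    (ht : Transcendental K t) :
    {v : Place K F | ∃ c : K, 2 ≤ v.ord (t - algebraMap K F c)}.Finite := by
  have hfd := finiteDimensional_adjoin_of_transcendental ht
  have hA := isPID_Apoly ht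
  have hB := isDedekind_Bint ht
  have hBF := isFractionRing_Bint (K := K) t
  have hfin := finite_Bint ht
  have hfaith : FaithfulSMul (Apoly K t) (Bint K t) :=
    (faithfulSMul_iff_algebraMap_injective _ _).mpr fun a b h =>
      Subtype.ext (congrArg (fun x : Bint K t => (x : F)) h)
  have hc0 : CharZero (Apoly K t) := charZero_of_injective_algebraMap
    (algebraMap K (Apoly K t)).injective
  have htf : Module.IsTorsionFree (Apoly K t) (Bint K t) := inferInstance
  obtain ⟨hd, hram⟩ := Simple_general (Apoly K t) (Bint K t)
  refine ((Ideal.finite_factors hd).image (Place.ofHeightOneSpectrum (K := K) (F := F))).subset ?_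
  rintro v ⟨c, hv⟩
  have htO : t ∈ v.toValuationSubring := by
    have h1 : t - algebraMap K F c ∈ v.toValuationSubring :=
      mem_toValuationSubring_of_ord_nonneg v (by omega)
    have h2 := add_mem h1 (v.algebraMap_mem' c)
    rwa [sub_add_cancel] at h2
  obtain ⟨P, hP⟩ := exists_heightOneSpectrum_of_le (R := Bint K t) v.toValuationSubring
    (Bint_le _ v.algebraMap_mem' htO) v.ne_top'
  have hPv : Place.ofHeightOneSpectrum (K := K) P = v := Place.ext hP
  refine ⟨P, ?_, hPv⟩
  show P.asIdeal ∣ differentIdeal (Apoly K t) (Bint K t)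
  have hmax := Simple_isMaximal ht c
  have hne := Simple_ne_bot ht c
  set b : Bint K t := algebraMap (Apoly K t) (Bint K t) (Simple_a K t c) with hb
  have hbF : algebraMap (Bint K t) F b = t - algebraMap K F c := rfl
  have hmem : b ∈ P.asIdeal ^ 2 := by
    rw [← HeightOneSpectrum.intValuation_le_pow_iff_mem, ← P.valuation_of_algebraMap (K := F)]
    change P.valuation F (t - algebraMap K F c) ≤ _
    rw [← hPv, ord_ofHeightOneSpectrum] at hv
    have h0 : P.valuation F (t - algebraMap K F c) ≠ 0 := by
      intro h0
      rw [h0] at hv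
      simp at hv
    rw [← WithZero.log_le_log h0 WithZero.exp_ne_zero, WithZero.log_exp]
    push_cast
    omega
  have hdvd : P.asIdeal ^ 2 ∣ (Ideal.span {Simple_a K t c}).map
      (algebraMap (Apoly K t) (Bint K t)) := by
    rw [Ideal.map_span, Set.image_singleton, Ideal.dvd_iff_le, Ideal.span_singleton_le_iff_mem]
    exact hmem
  exact hram _ hmax P.asIdeal hne hdvd

/-- **FFK-4**: all but finitely many `t - c` have only simple zeros.
(`c` is determined by `v`: `eq_of_ord_sub_pos`.) -/
theorem finite_multiple_values [IsAlgClosed K] [CharZero K] [IsFF1 K F] {t : F}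
    (ht : Transcendental K t) :
    {c : K | ∃ v : Place K F, 2 ≤ v.ord (t - algebraMap K F c)}.Finite := by
  classical
  let f : Place K F → K := fun v =>
    if h : ∃ c : K, 2 ≤ v.ord (t - algebraMap K F c) then h.choose else 0
  refine ((finite_ramified_places ht).image f).subset ?_
  rintro c ⟨v, hv⟩
  refine ⟨v, ⟨c, hv⟩, ?_⟩
  have h : ∃ c : K, 2 ≤ v.ord (t - algebraMap K F c) := ⟨c, hv⟩
  have hf : f v = h.choose := dif_pos h
  rw [hf]
  have h1 := h.choose_spec
  exact eq_of_ord_sub_pos v (x := t) (by omega) (by omega)

end Fermat.Agent.S17.FFK
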