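import Fermat.Agent.S17.FFK.CM
import Fermat.Agent.S27.B.Pic

/-!
# S17 / FFK : the regularity bound is uniform in constant field extensions
-/

set_option autoImplicit false

namespace Fermat.Agent.S17.FFK

open AlgebraicCurve Fermat.Agent.S24.FF Fermat.Agent.GAL.FF Fermat.Agent.S27

variable {k K Fk F : Type*} [Field k] [Field K] [Field Fk] [Field F]
  [Algebra k K] [Algebra k Fk] [Algebra K F] [Algebra Fk F] [Algebra k F]
  [IsScalarTower k K F] [IsScalarTower k Fk F]
  [IsAlgClosed k] [IsAlgClosed K] [CharZero k] [CharZero K] [IsFF1 k Fk] [IsFF1 K F]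

/-- **uniform `c₀`**: one non-special divisor `D₀` of `Fk/k` gives the regularity bound
`deg D₀ + g` for EVERY constant field extension `F/K`. -/
theorem isReg_of_isConstExt (h : IsConstExt k K Fk F) {D₀ : Divisor k Fk}
    (h0 : (GAL.FF.ell D₀ : ℤ) = Divisor.degree D₀ + 1 - genusFF k Fk) :
    IsReg K F (Divisor.degree D₀ + genusFF k Fk) := by
  have h1 : (GAL.FF.ell (h.extDiv D₀) : ℤ) =
      Divisor.degree (h.extDiv D₀) + 1 - genusFF K F := by
    have := h.ell_extDiv D₀
    rw [h.degree_extDiv, h.genusFF_eq, ← h0]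
    exact_mod_cast this
  have := isReg_of_ell_eq h1
  rwa [h.degree_extDiv, h.genusFF_eq] at this

omit [CharZero k] in
variable (k Fk) in
/-- a non-special divisor exists (feed it to `isReg_of_isConstExt`). -/
theorem exists_nonspecial : ∃ D₀ : Divisor k Fk,
    (GAL.FF.ell D₀ : ℤ) = Divisor.degree D₀ + 1 - genusFF k Fk := by
  obtain ⟨c, hc⟩ := exists_isReg k Fk
  obtain ⟨D₁, -, -, h1⟩ := exists_split (0 : Divisor k Fk) c
  exact ⟨D₁, hc D₁ h1.ge⟩

end Fermat.Agent.S17.FFK
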